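/-
A family of flat cocycles: one module for all of them, the generation of the decomposition group,
the determinant at `τ`, and changes of basis.
-/
import Fermat.Agent.FlatBound.Defs
import Fermat.Agent.FlatBound.Kummer.Count
import Fermat.Agent.FlatBound.Local.Gen
import Fermat.Agent.FlatBound.Local.Tame
import Fermat.Agent.FlatBound.Ram.Prod

set_option autoImplicit false
set_option linter.unusedSectionVars false
set_option linter.style.haveILetI false

noncomputable section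

namespace Fermat.Agent.FlatBound

open Fermat.Agent.Galois (GQ)
open Fermat.Agent.Deform (Mat2)
open IsLocalRing

local notation "ℚb" => AlgebraicClosure ℚ

variable {A : ValuationSubring (AlgebraicClosure ℚ)} {p : ℕ} [Fact p.Prime]
  {k : Type} [Field k] [Finite k] [CharP k p] {r : GQ →* Mat2 k} {n : ℕ} {c : Fin n → GQ → Mat2 k}

/-- A family of trace zero cocycles with flat lifts. -/
structure Family (p : ℕ) (r : GQ →* Mat2 k) (c : Fin n → GQ → Mat2 k) : Prop where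
  det : DetCyclo p r
  tr : ∀ i σ, (c i σ).trace = 0
  flat : ∀ i, HasFlatLift p r (c i)

/-- Four functionals whose common zeros vanish on the decomposition group. -/
def Bounded (A : ValuationSubring (AlgebraicClosure ℚ)) (c : Fin n → GQ → Mat2 k) : Prop :=
  ∃ Φ : (GQ → Mat2 k) →ₗ[k] (Fin 4 → k), ∀ f ∈ Submodule.span k (Set.range c), Φ f = 0 →
    ∀ σ ∈ A.decompositionSubgroup ℚ, f σ = 0

/-- The cocycle identity. -/
def IsCocyc (r : GQ →* Mat2 k) (f : GQ → Mat2 k) : Prop :=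
  ∀ σ τ, f (σ * τ) = f σ + r σ * f τ * r σ⁻¹

theorem rep_mul_inv (r : GQ →* Mat2 k) (σ : GQ) : r σ * r σ⁻¹ = 1 := by
  rw [← map_mul, mul_inv_cancel, map_one]

theorem rep_inv_mul (r : GQ →* Mat2 k) (σ : GQ) : r σ⁻¹ * r σ = 1 := by
  rw [← map_mul, inv_mul_cancel, map_one]

theorem det_rep_ne_zero (r : GQ →* Mat2 k) (σ : GQ) : (r σ).det ≠ 0 := fun h => by
  have h1 := congrArg Matrix.det (rep_mul_inv r σ)
  rw [Matrix.det_mul, h, zero_mul, Matrix.det_one] at h1
  exact zero_ne_one h1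

theorem lift_facts {f : GQ → Mat2 k} {M : Type} [AddCommGroup M] [DistribMulAction GQ M]
    (e : M ≃+ (Fin 2 → k) × (Fin 2 → k))
    (he : ∀ (σ : GQ) (m : M), e (σ • m) =
      ((r σ).mulVec (e m).1, (r σ).mulVec (e m).2 + (f σ * r σ).mulVec (e m).1)) :
    IsCocyc r f ∧ (∀ σ, (∀ x : M, σ • x = x) → r σ = 1 ∧ f σ = 0) ∧ ∀ x : M, p • x = 0 := by
  refine ⟨fun σ τ => ?_, fun σ h => ?_, fun x => e.injective ?_⟩
  · have key : f (σ * τ) * r (σ * τ) = f σ * r (σ * τ) + r σ * (f τ * r τ) := by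
      refine Matrix.ext_iff_mulVec.mpr fun a => ?_
      have h := congrArg e (mul_smul σ τ (e.symm (a, 0)))
      simp only [he, AddEquiv.apply_symm_apply, Matrix.mulVec_zero, zero_add, Prod.mk.injEq,
        Matrix.mulVec_mulVec] at h
      rw [h.2, Matrix.add_mulVec, mul_assoc, map_mul, add_comm, ← mul_assoc]
    have h1 := congrArg (· * r (σ * τ)⁻¹) key
    simp only [add_mul, mul_assoc, rep_mul_inv, mul_one] at h1
    rw [h1, mul_inv_rev, map_mul, ← mul_assoc (r τ), rep_mul_inv, one_mul, mul_assoc]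
  · have key : ∀ a, (r σ).mulVec a = a ∧ (f σ * r σ).mulVec a = 0 := fun a => by
      have h1 := congrArg e (h (e.symm (a, 0)))
      simp only [he, AddEquiv.apply_symm_apply, Matrix.mulVec_zero, zero_add, Prod.mk.injEq] at h1
      exact h1
    have hr : r σ = 1 := Matrix.ext_iff_mulVec.mpr fun a => by rw [(key a).1, Matrix.one_mulVec]
    refine ⟨hr, Matrix.ext_iff_mulVec.mpr fun a => ?_⟩
    have := (key a).2
    rwa [hr, mul_one, ← Matrix.zero_mulVec (m := Fin 2) a] at this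
  · have hk : ∀ v : Fin 2 → k, p • v = 0 := fun v => funext fun i => by
      rw [Pi.smul_apply, nsmul_eq_mul, CharP.cast_eq_zero, zero_mul, Pi.zero_apply]
    rw [map_nsmul, map_zero, Prod.ext_iff, Prod.smul_fst, Prod.smul_snd, hk, hk]
    exact ⟨rfl, rfl⟩

theorem isCocyc_of_hasFlatLift {f : GQ → Mat2 k} (h : HasFlatLift p r f) : IsCocyc r f := by
  obtain ⟨M, _, _, e, he, -⟩ := h
  exact (lift_facts (p := p) e he).1

theorem exists_module_one (hA : A.LiesOverPrime p) {f : GQ → Mat2 k} (h : HasFlatLift p r f) :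
    ∃ (M : Type) (_ : AddCommGroup M) (_ : DistribMulAction GQ M) (_ : Finite M),
      Nonempty (Chart A M) ∧ (∀ x : M, p • x = 0) ∧
        ∀ σ, (∀ x : M, σ • x = x) → r σ = 1 ∧ f σ = 0 := by
  obtain ⟨M, iA, iM, e, he, hm⟩ := h
  haveI : Finite M := Finite.of_equiv _ e.symm.toEquiv
  exact ⟨M, iA, iM, inferInstance, nonempty_chart hA hm, (lift_facts e he).2.2, (lift_facts (p := p) e he).2.1⟩

/-- One module cuts out all the cocycles of a family. -/
theorem exists_module (hA : A.LiesOverPrime p) :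
    ∀ (n : ℕ) (c : Fin (n + 1) → GQ → Mat2 k), (∀ i, HasFlatLift p r (c i)) →
      ∃ (M : Type) (_ : AddCommGroup M) (_ : DistribMulAction GQ M) (_ : Finite M),
        Nonempty (Chart A M) ∧ (∀ x : M, p • x = 0) ∧
          ∀ σ, (∀ x : M, σ • x = x) → r σ = 1 ∧ ∀ i, c i σ = 0 := by
  intro n
  induction n with
  | zero =>
    intro c hc
    obtain ⟨M, iA, iM, iF, hX, hp, hk⟩ := exists_module_one hA (hc 0)
    exact ⟨M, iA, iM, iF, hX, hp, fun σ hσ => ⟨(hk σ hσ).1, fun i => by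
      rw [Fin.fin_one_eq_zero i]; exact (hk σ hσ).2⟩⟩
  | succ n ih =>
    intro c hc
    obtain ⟨M, _, _, _, ⟨X⟩, hp, hk⟩ := exists_module_one hA (hc 0)
    obtain ⟨N, _, _, _, ⟨Y⟩, hp', hk'⟩ := ih (fun i => c i.succ) fun i => hc _
    refine ⟨M × N, inferInstance, inferInstance, inferInstance, X.prod Y,
      fun z => Prod.ext (hp _) (hp' _), fun σ hσ => ?_⟩
    have h1 := hk σ fun x => congrArg Prod.fst (hσ (x, 0))
    have h2 := hk' σ fun y => congrArg Prod.snd (hσ (0, y))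
    exact ⟨h1.1, fun i => Fin.cases h1.2 h2.2 i⟩

theorem span_facts (hc : Family p r c) {f : GQ → Mat2 k} (hf : f ∈ Submodule.span k (Set.range c)) :
    IsCocyc r f ∧ (∀ σ, (f σ).trace = 0) ∧ ∀ σ, (∀ i, c i σ = 0) → f σ = 0 := by
  induction hf using Submodule.span_induction with
  | mem f hf =>
    obtain ⟨i, rfl⟩ := hf
    exact ⟨isCocyc_of_hasFlatLift (hc.flat i), hc.tr i, fun σ h => h i⟩
  | zero => exact ⟨fun σ τ => by simp, fun σ => by simp, fun σ _ => rfl⟩
  | add f g _ _ h h' =>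
    refine ⟨fun σ τ => ?_, fun σ => by simp [h.2.1 σ, h'.2.1 σ], fun σ hσ => by simp [h.2.2 σ hσ, h'.2.2 σ hσ]⟩
    simp only [Pi.add_apply, h.1 σ τ, h'.1 σ τ, mul_add, add_mul]
    abel
  | smul a f _ h =>
    refine ⟨fun σ τ => ?_, fun σ => by simp [h.2.1 σ], fun σ hσ => by simp [h.2.2 σ hσ]⟩
    simp only [Pi.smul_apply, h.1 σ τ, smul_add, mul_smul_comm, smul_mul_assoc]

/-! ## Generation -/

variable (S : Setting A p)

theorem forall_inertia (P : GQ → Prop) (hone : P 1)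
    (hmul : ∀ σ ∈ A.decompositionSubgroup ℚ, ∀ τ ∈ A.decompositionSubgroup ℚ, P σ → P τ → P (σ * τ))
    (hW : ∀ w ∈ S.W, P w) (hτ : P S.tau) {σ : GQ} (hσ : σ ∈ A.inertiaSubgroupIn ℚ) : P σ := by
  obtain ⟨j, -, w, hw, rfl⟩ := S.exists_pow_mul hσ
  refine hmul _ (pow_mem S.tau_dec j) _ (S.W_dec hw) ?_ (hW w hw)
  clear hσ
  induction j with
  | zero => rwa [pow_zero]
  | succ j ih =>
    rw [pow_succ]
    exact hmul _ (pow_mem S.tau_dec j) _ S.tau_dec ih hτ

variable {M : Type} [AddCommGroup M] [DistribMulAction GQ M] [Finite M] (X : Chart A M)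

include X in
theorem forall_decomposition (P : GQ → Prop)
    (hmul : ∀ σ ∈ A.decompositionSubgroup ℚ, ∀ τ ∈ A.decompositionSubgroup ℚ, P σ → P τ → P (σ * τ))
    (hker : ∀ σ ∈ A.decompositionSubgroup ℚ, (∀ x : M, σ • x = x) → P σ)
    (hW : ∀ w ∈ S.W, P w) (hτ : P S.tau) (hφ : P S.frob)
    {σ : GQ} (hσ : σ ∈ A.decompositionSubgroup ℚ) : P σ := by
  have hone : P 1 := hker 1 (one_mem _) fun x => one_smul GQ x
  obtain ⟨m, t, ht, heq⟩ := exists_pow_mul_inertia S.hA S.hfrob X.splitFld hσ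
  have hpow : ∀ m : ℕ, P (S.frob ^ m) := fun m => by
    induction m with
    | zero => rwa [pow_zero]
    | succ m ih => rw [pow_succ]; exact hmul _ (pow_mem S.frob_dec m) _ S.frob_dec ih hφ
  have hd : S.frob ^ m * t ∈ A.decompositionSubgroup ℚ :=
    mul_mem (pow_mem S.frob_dec m) (inertia_mem_decomposition ht)
  have h : P ((S.frob ^ m * t)⁻¹ * σ) := hker _ (mul_mem (inv_mem hd) hσ) (X.fix_iff.mp fun i x => by
    rw [AlgEquiv.mul_apply, heq _ (X.value_mem i x)]
    exact AlgEquiv.symm_apply_apply _ _)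
  rw [← mul_inv_cancel_left (S.frob ^ m * t) σ]
  exact hmul _ hd _ (mul_mem (inv_mem hd) hσ)
    (hmul _ (pow_mem S.frob_dec m) _ (inertia_mem_decomposition ht) (hpow m)
      (forall_inertia S P hone hmul hW hτ ht)) h

include X in
/-- Functions additive on `W` which factor through a flat module lie at the level zero. -/
theorem atLevel_zero_of_chart (hM : ∀ x : M, p • x = 0) {g : GQ → k}
    (hadd : ∀ a ∈ S.W, ∀ b ∈ S.W, g (a * b) = g a + g b)
    (hker : ∀ σ ∈ S.W, (∀ x : M, σ • x = x) → g σ = 0) : AtLevel S 0 g := fun t =>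
  hasLead_of_chart X hM (fun a ha b hb => by simp only [trc, hadd a ha b hb, mul_add, map_add])
    fun σ hσ h => by simp [trc, hker σ hσ h]

/-! ## The determinant -/

include S in
theorem exists_exponent (s : GQ) : ∃ a : ℕ, s S.zp = S.zp ^ a := by
  haveI : NeZero p := ⟨(Fact.out : p.Prime).ne_zero⟩
  obtain ⟨a, -, ha⟩ := S.hzp.eq_pow_of_pow_eq_one
    (show (s S.zp) ^ p = 1 by rw [← map_pow, S.hzp.pow_eq_one, map_one])
  exact ⟨a, ha.symm⟩

theorem det_eq (hdet : DetCyclo p r) {s : GQ} {a : ℕ} (ha : s S.zp = S.zp ^ a) :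
    (r s).det = (a : k) := hdet s a fun μ hμ => by
  haveI : NeZero p := ⟨(Fact.out : p.Prime).ne_zero⟩
  obtain ⟨i, -, rfl⟩ := S.hzp.eq_pow_of_pow_eq_one hμ
  rw [map_pow, ha, ← pow_mul, ← pow_mul, mul_comm]

include S in
theorem det_pow_p (hdet : DetCyclo p r) (s : GQ) : (r s).det ^ p = (r s).det := by
  obtain ⟨a, ha⟩ := exists_exponent S s
  rw [det_eq S hdet ha, ← frobenius_def p, map_natCast]

theorem map_det_tau (hdet : DetCyclo p r) (ι : k →+* ResidueField A) :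
    ι (r S.tau).det = res A S.z ^ (p + 1) := by
  obtain ⟨a, ha⟩ := exists_exponent S S.tau
  rw [det_eq S hdet ha, map_natCast, S.res_exponent S.tau_mem ha (k := 1) (by rw [pow_one, S.tau_pi]),
    mul_one]

theorem sub_one_dvd_of_det_tau_pow (hdet : DetCyclo p r) {m : ℕ} (h : (r S.tau).det ^ m = 1) :
    p - 1 ∣ m := by
  obtain ⟨ι⟩ := exists_residue_embedding (k := k) S.hA
  have h1 := congrArg ι h
  rw [map_pow, map_det_tau S hdet ι, map_one, ← pow_mul] at h1
  have h2 := S.res_z_primitive.dvd_of_pow_eq_one _ h1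
  rw [tdeg_eq] at h2
  exact Nat.dvd_of_mul_dvd_mul_left (Nat.succ_pos p) h2

include X in
theorem W_diag_sq {w : GQ} (hdet : DetCyclo p r) (hker : ∀ σ, (∀ x : M, σ • x = x) → r σ = 1)
    (hw : w ∈ S.W) : (r w - 1) * (r w - 1) = 0 :=
  W_unipotent S ⟨X.splitFld, inferInstance, fun σ h => hker σ (X.fix_iff.mp fun i x => h _ (X.value_mem i x))⟩
    (fun σ _ => det_pow_p S hdet σ) hw

include S in
theorem two_ne_zero_k : (2 : k) ≠ 0 := fun h => by
  rw [show (2 : k) = ((2 : ℕ) : k) by norm_num, CharP.cast_eq_zero_iff k p] at h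
  have := Nat.le_of_dvd (by norm_num) h
  have := S.hp3
  omega

/-- Equal weights of two levels related by `p` are zero. -/
theorem weight_pow_eq {l l' : ℕ} (hl : l ≤ p) (hl1 : l ≠ 1) (hl' : l' ≤ p) (hl'1 : l' ≠ 1)
    (h : (res A S.z ^ l) ^ p = res A S.z ^ l') : l = 0 ∧ l' = 0 := by
  have hp3 := S.hp3
  have hlt' : l' < tdeg p := (Nat.lt_succ_of_le hl').trans (add_one_lt_tdeg hp3)
  rw [← pow_mul] at h
  rcases hl.lt_or_eq with hlt | rfl
  · have hlp : l * p < tdeg p := by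
      have h1 : l * p + p ≤ p * p := by
        rw [← Nat.succ_mul]; exact Nat.mul_le_mul_right p hlt
      show _ < p * p - 1
      omega
    have h2 := S.res_z_primitive.pow_inj hlp hlt' h
    rcases Nat.eq_zero_or_pos l with rfl | hpos
    · exact ⟨rfl, by simpa using h2.symm⟩
    · have : 2 * p ≤ l * p := Nat.mul_le_mul_right p (by omega)
      omega
  · rw [← tdeg_add_one (by omega : 1 ≤ l), pow_succ, S.res_z_primitive.pow_eq_one, one_mul] at h
    exact absurd (S.res_z_primitive.pow_inj hlt' (lt_of_le_of_lt (Nat.le_add_left 1 l) (add_one_lt_tdeg hp3))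
      (by rw [pow_one]; exact h.symm)) hl'1

variable {J : Type} [Fintype J] [DecidableEq J] [Nonempty J]

/-- When all admissible leading vectors are proportional, one value detects the restriction to `W`. -/
theorem exists_detect {H : Submodule k (GQ → J → k)} (E : Equivariant S H)
    (ι : k →+* ResidueField A)
    (hone : ∀ l ≤ p, l ≠ 1 → ∀ l' ≤ p, l' ≠ 1 → ∀ B B', IsEigen S ι E.Tt l B →
      IsEigen S ι E.Tt l' B' → B ≠ 0 → B' ≠ 0 → l' = l ∧ ∃ x : ResidueField A, B' = x • B) :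
    ∃ σ₀ : GQ, ∃ j : J, ∀ h ∈ H, h σ₀ j = 0 → ∀ σ ∈ S.W, h σ = 0 := by
  classical
  obtain ⟨j₀⟩ := ‹Nonempty J›
  by_cases hz : ∀ h ∈ H, ∀ σ ∈ S.W, h σ = 0
  · exact ⟨1, j₀, fun h hh _ => hz h hh⟩
  push Not at hz
  obtain ⟨h₀, hh₀, σ₀, hσ₀, hne⟩ := hz
  obtain ⟨j, hj⟩ := Function.ne_iff.mp hne
  refine ⟨σ₀, j, fun h hh h0 σ hσ => ?_⟩
  by_cases hex : ∃ l, l ≤ p ∧ l ≠ 1 ∧ ∃ B, IsEigen S ι E.Tt l B ∧ B ≠ 0
  · obtain ⟨l₀, hl₀, hl₀1, B₀, hB₀, hB₀0⟩ := hex
    obtain ⟨a, ha⟩ := exists_smul_eq_on_W ι E hl₀ hl₀1 B₀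
      (fun l hl hl1 B hB hB0 => hone l₀ hl₀ hl₀1 l hl hl1 B₀ B hB₀ hB hB₀0 hB0) hh₀ hh
      ⟨σ₀, hσ₀, hne⟩
    rw [ha σ₀ hσ₀, Pi.smul_apply, smul_eq_mul] at h0
    rw [ha σ hσ, (mul_eq_zero.mp h0).resolve_right hj, zero_smul]
  · push Not at hex
    exact eq_zero_on_W ι E (fun l hl hl1 B hB => hex l hl hl1 B hB) hh hσ

end Fermat.Agent.FlatBound
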