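/-
The bound when no line is stable: one weight, three further values.
-/
import Fermat.Agent.FlatBound.Cases.Family

set_option autoImplicit false
set_option linter.unusedSectionVars false
set_option linter.style.haveILetI false

noncomputable section

namespace Fermat.Agent.FlatBound

open Fermat.Agent.Galois (GQ)
open Fermat.Agent.Deform (Mat2)
open IsLocalRing

local notation "ℚb" => AlgebraicClosure ℚ

variable {A : ValuationSubring (AlgebraicClosure ℚ)} {p : ℕ} [Fact p.Prime]
  {k : Type} [Field k] [Finite k] [CharP k p] {r : GQ →* Mat2 k}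

/-- A vector spans a stable line of the decomposition group. -/
def StableLine (A : ValuationSubring (AlgebraicClosure ℚ)) (r : GQ →* Mat2 k) (v : Fin 2 → k) : Prop :=
  v ≠ 0 ∧ ∀ σ ∈ A.decompositionSubgroup ℚ, ∃ a : k, (r σ).mulVec v = a • v

/-- A matrix killing two vectors is zero, or they are proportional. -/
theorem eq_zero_or_prop {F : Type*} [Field F] {N : Matrix (Fin 2) (Fin 2) F} {v u : Fin 2 → F}
    (hv : v ≠ 0) (h1 : N.mulVec v = 0) (h2 : N.mulVec u = 0) : N = 0 ∨ ∃ a : F, u = a • v := by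
  by_cases hd : v 0 * u 1 - v 1 * u 0 = 0
  · refine Or.inr ?_
    by_cases h0 : v 0 = 0
    · have hv1 : v 1 ≠ 0 := fun h => hv (funext fun i => by fin_cases i <;> assumption)
      refine ⟨u 1 / v 1, funext fun i => ?_⟩
      fin_cases i
      · simp only [h0, zero_mul, zero_sub, neg_eq_zero, mul_eq_zero] at hd
        simp [h0, hd.resolve_left hv1]
      · simp [hv1]
    · refine ⟨u 0 / v 0, funext fun i => ?_⟩
      fin_cases i
      · simp [h0]
      · simp only [Fin.mk_one, Fin.isValue, Pi.smul_apply, smul_eq_mul]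
        field_simp
        linear_combination hd
  · refine Or.inl (Matrix.ext fun i j => ?_)
    have e1 := congrFun h1 i
    have e2 := congrFun h2 i
    simp only [Matrix.mulVec, dotProduct, Fin.sum_univ_two, Pi.zero_apply] at e1 e2
    fin_cases j
    · exact (mul_eq_zero.mp (show N i 0 * (v 0 * u 1 - v 1 * u 0) = 0 by
        linear_combination (u 1) * e1 - (v 1) * e2)).resolve_right hd
    · exact (mul_eq_zero.mp (show N i 1 * (v 0 * u 1 - v 1 * u 0) = 0 by
        linear_combination (v 0) * e2 - (u 0) * e1)).resolve_right hd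

/-- Two entries determine a traceless matrix orthogonal to a non-scalar one. -/
theorem exists_two_entries (g : Mat2 k) (hg : ∀ a : k, g ≠ a • 1) :
    ∃ x y : Fin 2 × Fin 2, ∀ Y : Mat2 k, Y.trace = 0 → (g * Y).trace = 0 →
      Y x.1 x.2 = 0 → Y y.1 y.2 = 0 → Y = 0 := by
  have hY : ∀ Y : Mat2 k, Y.trace = 0 → (g * Y).trace = 0 → Y 1 1 = -Y 0 0 ∧
      g 0 1 * Y 1 0 + g 1 0 * Y 0 1 + (g 0 0 - g 1 1) * Y 0 0 = 0 := fun Y h1 h2 => by
    simp only [Matrix.trace_fin_two, Matrix.mul_apply, Fin.sum_univ_two] at h1 h2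
    have h3 : Y 1 1 = -Y 0 0 := by linear_combination h1
    rw [h3] at h2
    exact ⟨h3, by linear_combination h2⟩
  have done : ∀ Y : Mat2 k, Y 0 0 = 0 → Y 0 1 = 0 → Y 1 0 = 0 → Y 1 1 = -Y 0 0 → Y = 0 :=
    fun Y a b c d => by ext i j; fin_cases i <;> fin_cases j <;> simp [a, b, c, d]
  by_cases h10 : g 1 0 = 0
  · by_cases h01 : g 0 1 = 0
    · have hd : g 0 0 - g 1 1 ≠ 0 := fun h => hg (g 0 0) (by
        ext i j
        fin_cases i <;> fin_cases j <;> simp [h10, h01, ← sub_eq_zero.mp h])
      refine ⟨(0, 1), (1, 0), fun Y h1 h2 hx hy => ?_⟩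
      obtain ⟨e1, e2⟩ := hY Y h1 h2
      rw [h10, h01, zero_mul, zero_mul, zero_add, zero_add] at e2
      exact done Y ((mul_eq_zero.mp e2).resolve_left hd) hx hy e1
    · refine ⟨(0, 0), (0, 1), fun Y h1 h2 hx hy => ?_⟩
      obtain ⟨e1, e2⟩ := hY Y h1 h2
      rw [hx, hy, mul_zero, mul_zero, add_zero, add_zero] at e2
      exact done Y hx hy ((mul_eq_zero.mp e2).resolve_left h01) e1
  · refine ⟨(0, 0), (1, 0), fun Y h1 h2 hx hy => ?_⟩
    obtain ⟨e1, e2⟩ := hY Y h1 h2
    rw [hx, hy, mul_zero, mul_zero, zero_add, add_zero] at e2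
    exact done Y hx ((mul_eq_zero.mp e2).resolve_left h10) hy e1

/-- The matrix of `Y ↦ a P Y Q`. -/
def conjMat {R : Type*} [CommRing R] (a : R) (P Q : Matrix (Fin 2) (Fin 2) R) :
    Matrix (Fin 2 × Fin 2) (Fin 2 × Fin 2) R :=
  Matrix.of fun x y => a * P x.1 y.1 * Q y.2 x.2

theorem conjMat_mulVec {R : Type*} [CommRing R] (a : R) (P Q Y : Matrix (Fin 2) (Fin 2) R) :
    (conjMat a P Q).mulVec (fun x => Y x.1 x.2) = fun x => (a • (P * Y * Q)) x.1 x.2 := by
  funext x
  simp only [Matrix.mulVec, dotProduct, conjMat, Matrix.of_apply, Fintype.sum_prod_type,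
    Fin.sum_univ_two, Matrix.smul_apply, Matrix.mul_apply, smul_eq_mul]
  ring

theorem trace_map_two {R R' : Type*} [CommRing R] [CommRing R'] (ι : R →+* R')
    (Y : Matrix (Fin 2) (Fin 2) R) : (Y.map ι).trace = ι Y.trace := by
  simp [Matrix.trace_fin_two]

theorem conjMat_map {R R' : Type*} [CommRing R] [CommRing R'] (ι : R →+* R') (a : R)
    (P Q : Matrix (Fin 2) (Fin 2) R) :
    (conjMat a P Q).map ι = conjMat (ι a) (P.map ι) (Q.map ι) := by
  ext x y
  simp [conjMat]

theorem conjMat_mul {R : Type*} [CommRing R] {a b : R} {P Q P' Q' : Matrix (Fin 2) (Fin 2) R}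
    (hab : b * a = 1) (hP : P' * P = 1) (hQ : Q * Q' = 1) :
    conjMat b P' Q' * conjMat a P Q = 1 := by
  refine Matrix.ext_iff_mulVec.mpr fun v => ?_
  have hv : v = fun x => (Matrix.of fun i j => v (i, j)) x.1 x.2 := rfl
  conv_lhs => rw [hv, ← Matrix.mulVec_mulVec, conjMat_mulVec, conjMat_mulVec]
  rw [Matrix.one_mulVec, mul_smul_comm, smul_mul_assoc, smul_smul, hab, one_smul, ← mul_assoc,
    ← mul_assoc, hP, one_mul, mul_assoc, hQ, mul_one]
  rfl

section Irreducible

variable (S : Setting A p) {n : ℕ} {c : Fin (n + 1) → GQ → Mat2 k} {M : Type} [AddCommGroup M]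
  [DistribMulAction GQ M] [Finite M] (X : Chart A M)

include X in
theorem rep_W_eq_one (hdet : DetCyclo p r) (hker : ∀ σ, (∀ x : M, σ • x = x) → r σ = 1)
    (hno : ∀ v, ¬ StableLine A r v) {w : GQ} (hw : w ∈ S.W) : r w = 1 := by
  by_contra hne
  obtain ⟨v, hv0, hv⟩ := exists_fixed_vector p r S.W fun h hh => W_diag_sq S X hdet hker hh
  refine hno v ⟨hv0, fun σ hσ => ?_⟩
  have hfix : (r w - 1).mulVec ((r σ).mulVec v) = 0 := by
    have h1 := hv _ (S.conj_mem_W' hσ hw)
    rw [Matrix.sub_mulVec, Matrix.one_mulVec, sub_eq_zero, Matrix.mulVec_mulVec, ← map_mul,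
      show w * σ = σ * (σ⁻¹ * w * σ) by group, map_mul, ← Matrix.mulVec_mulVec, h1]
  rcases eq_zero_or_prop hv0 (by rw [Matrix.sub_mulVec, Matrix.one_mulVec, hv w hw, sub_self]) hfix
    with h | h
  · exact absurd (sub_eq_zero.mp h) hne
  · exact h

include S X in
/-- The bound without stable lines. -/
theorem bounded_of_irred (hc : Family p r c) (hM : ∀ x : M, p • x = 0)
    (hker : ∀ σ, (∀ x : M, σ • x = x) → r σ = 1 ∧ ∀ i, c i σ = 0)
    (hno : ∀ v, ¬ StableLine A r v) : Bounded A c := by
  classical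
  obtain ⟨ι⟩ := exists_residue_embedding (k := k) S.hA
  haveI : CharP (ResidueField A) p := charP_residue S.hA
  haveI : IsAlgClosed (ResidueField A) := GalRep.Model.residue_isAlgClosed A
  have hp3 := S.hp3
  have hp2 : p ≠ 2 := by omega
  have h2 : (2 : k) ≠ 0 := two_ne_zero_k S
  have hr1 : ∀ w ∈ S.W, r w = 1 := fun w hw =>
    rep_W_eq_one S X hc.det (fun σ h => (hker σ h).1) hno hw
  set g := r S.tau with hgdef
  set gi := r S.tau⁻¹ with hgidef
  set P := r S.frob with hPdef
  have hgg : g * gi = 1 := rep_mul_inv r _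
  have hgp : P * g * r S.frob⁻¹ = g ^ p := by
    obtain ⟨w, hw, hwe⟩ := S.frob_conj
    rw [hPdef, hgdef, ← map_mul, ← map_mul, hwe, map_mul, map_pow, hr1 w hw, mul_one]
  have hPg : P * g = g ^ p * P := by
    rw [← hgp, mul_assoc (P * g), hPdef, rep_inv_mul, mul_one]
  set t := g.trace with ht
  set d := g.det with hd
  have hd0 : d ≠ 0 := det_rep_ne_zero r _
  have hdp : d ^ p = d := det_pow_p S hc.det _
  have htp : t ^ p = t := by
    rw [ht, ← mat_trace_pow_char hp2 g, ← hgp, Matrix.trace_mul_comm, ← mul_assoc, hPdef,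
      rep_inv_mul, one_mul]
  -- a vector with an eigenvalue in the prime field gives a stable line
  have hline : ∀ (a : k) (v : Fin 2 → k), v ≠ 0 → g.mulVec v = a • v →
      (∀ u : Fin 2 → k, (g ^ p).mulVec u = a • u → ∃ b : k, u = b • v) → False := by
    intro a v hv0 hv hu
    refine hno v ⟨hv0, fun σ hσ => forall_decomposition S X
      (fun σ => ∃ b : k, (r σ).mulVec v = b • v) (fun x _ y _ hx hy => ?_)
      (fun σ _ h => ⟨1, by rw [(hker σ h).1, Matrix.one_mulVec, one_smul]⟩)
      (fun w hw => ⟨1, by rw [hr1 w hw, Matrix.one_mulVec, one_smul]⟩) ⟨a, hv⟩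
      (hu _ ?_) hσ⟩
    · obtain ⟨b, hb⟩ := hx
      obtain ⟨b', hb'⟩ := hy
      exact ⟨b' * b, by rw [map_mul, ← Matrix.mulVec_mulVec, hb', Matrix.mulVec_smul, hb, smul_smul]⟩
    · rw [Matrix.mulVec_mulVec, ← hPg, ← Matrix.mulVec_mulVec, hv, Matrix.mulVec_smul]
  -- `g` is not scalar
  have hnon : ∀ a : k, g ≠ a • 1 := by
    intro a ha
    have hda : d = a ^ 2 := by rw [hd, ha, Matrix.det_smul, Matrix.det_one, Fintype.card_fin, mul_one]
    have hap : a ^ p = a := by
      have h1 : g ^ p = g := by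
        rw [← hgp, ha, mul_smul_comm, mul_one, smul_mul_assoc, hPdef, rep_mul_inv]
      rw [ha, smul_pow, one_pow] at h1
      simpa using congrFun (congrFun h1 0) 0
    obtain ⟨m, hm⟩ := (Fact.out : p.Prime).odd_of_ne_two hp2
    have ha0 : a ≠ 0 := fun h => hd0 (by rw [hda, h, zero_pow two_ne_zero])
    have hd' := sub_one_dvd_of_det_tau_pow S hc.det (m := m) (by
      rw [← hgdef, ← hd, hda, ← pow_mul]
      exact mul_right_cancel₀ ha0 (by rw [one_mul, ← pow_succ, ← hm, hap]))
    have := Nat.le_of_dvd (by omega) hd'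
    omega
  -- the eigenvalues
  obtain ⟨α, hα⟩ := IsAlgClosed.exists_root
    (Polynomial.C 1 * Polynomial.X ^ 2 + Polynomial.C (-ι t) * Polynomial.X + Polynomial.C (ι d))
    (by rw [Polynomial.degree_quadratic one_ne_zero]; norm_num)
  simp only [Polynomial.IsRoot.def, Polynomial.eval_add, Polynomial.eval_mul, Polynomial.eval_C,
    Polynomial.eval_pow, Polynomial.eval_X, one_mul] at hα
  set β := ι t - α with hβ
  have hsum : α + β = ι t := by rw [hβ]; ring
  have hprod : α * β = ι d := by rw [hβ]; linear_combination -hα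
  have hιd : ι d = res A S.z ^ (p + 1) := map_det_tau S hc.det ι
  have hd0' : ι d ≠ 0 := fun h => hd0 (ι.injective (h.trans (map_zero ι).symm))
  have hα0 : α ≠ 0 := fun h => hd0' (by rw [← hprod, h, zero_mul])
  have hβ0 : β ≠ 0 := fun h => hd0' (by rw [← hprod, h, mul_zero])
  have hne : α ≠ β := by
    intro he
    have h2' : (2 : ResidueField A) * α = ι t := by
      rw [← hsum, ← he, two_mul]
    set a := t / 2 with ha
    have hta : t = 2 * a := by rw [ha]; field_simp
    have hαa : α = ι a := by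
      refine mul_left_cancel₀ (a := (2 : ResidueField A)) (fun h => h2 (ι.injective (show ι 2 = ι 0 by rw [map_ofNat, map_zero, h]))) ?_
      rw [h2', hta, map_mul, map_ofNat]
    have hda : d = a ^ 2 := ι.injective (by rw [← hprod, ← he, hαa, map_pow, sq])
    have hsq : (g - a • 1) * (g - a • 1) = 0 := by
      have h00 : g 0 0 + g 1 1 = 2 * a := by rw [← hta, ht, Matrix.trace_fin_two]
      have hde : g 0 0 * g 1 1 - g 0 1 * g 1 0 = a ^ 2 := by rw [← hda, hd, Matrix.det_fin_two]
      ext i j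
      fin_cases i <;> fin_cases j <;>
        simp [Matrix.mul_apply, Fin.sum_univ_two] <;>
        first
          | linear_combination (g 0 0) * h00 - hde
          | linear_combination (g 1 1) * h00 - hde
          | linear_combination (g 0 1) * h00
          | linear_combination (g 1 0) * h00
    have ha0 : a ≠ 0 := fun h => hd0 (by rw [hda, h, zero_pow two_ne_zero])
    have hu : (a⁻¹ • g - 1) * (a⁻¹ • g - 1) = 0 := by
      have : a⁻¹ • g - 1 = a⁻¹ • (g - a • (1 : Mat2 k)) := by
        rw [smul_sub, smul_smul, inv_mul_cancel₀ ha0, one_smul]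
      rw [this, smul_mul_smul_comm, hsq, smul_zero]
    have hpow := mat_pow_char_eq_one (p := p) hu
    have hgpa : g ^ p = a ^ p • (1 : Mat2 k) := by
      rw [← hpow, smul_pow, smul_smul, ← mul_pow, mul_inv_cancel₀ ha0, one_pow, one_smul]
    refine hnon (a ^ p) ?_
    have h1 := congrArg (fun Y => r S.frob⁻¹ * Y) hPg
    simp only [← mul_assoc, hPdef, rep_inv_mul, one_mul] at h1
    rw [h1, hgpa, mul_smul_comm, mul_one, smul_mul_assoc, rep_inv_mul]
  -- Frobenius exchanges them
  have hroot : ∀ x : ResidueField A, (x = α ∨ x = β) ↔ x ^ 2 - ι t * x + ι d = 0 := fun x => by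
    rw [show x ^ 2 - ι t * x + ι d = (x - α) * (x - β) by rw [← hsum, ← hprod]; ring, mul_eq_zero,
      sub_eq_zero, sub_eq_zero]
  have hfrob : (α + β) ^ p = α ^ p + β ^ p := add_pow_char α β p
  have hαp' : α ^ p = α ∨ α ^ p = β := by
    rw [hroot]
    have h1 := congrArg (fun x => x ^ p) (show α ^ 2 + ι d = ι t * α by linear_combination hα)
    simp only [add_pow_char, mul_pow, ← map_pow, htp, hdp, ← pow_mul] at h1
    rw [← pow_mul, mul_comm p 2]
    linear_combination h1
  -- an eigenbasis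
  set G := g.map ι with hG
  have hGtr : G 0 0 + G 1 1 = α + β := by
    rw [hsum, ht, Matrix.trace_fin_two, map_add]; rfl
  have hGdet : G 0 0 * G 1 1 - G 0 1 * G 1 0 = α * β := by
    rw [hprod, hd, Matrix.det_fin_two, map_sub, map_mul, map_mul]; rfl
  have heig : ∀ x : ResidueField A, (x = α ∨ x = β) →
      ∃ v : Fin 2 → ResidueField A, v ≠ 0 ∧ G.mulVec v = x • v := by
    intro x hx
    have hdet0 : (G - x • (1 : Matrix (Fin 2) (Fin 2) (ResidueField A))).det = 0 := by
      rw [Matrix.det_fin_two]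
      simp
      rcases hx with h | h <;> rw [h]
      · linear_combination hGdet - α * hGtr
      · linear_combination hGdet - β * hGtr
    obtain ⟨v, hv0, hv⟩ := Matrix.exists_mulVec_eq_zero_iff.mpr hdet0
    rw [Matrix.sub_mulVec, Matrix.smul_mulVec, Matrix.one_mulVec, sub_eq_zero] at hv
    exact ⟨v, hv0, hv⟩
  obtain ⟨v, hv0, hv⟩ := heig α (Or.inl rfl)
  obtain ⟨u, hu0, hu⟩ := heig β (Or.inr rfl)
  set R : Matrix (Fin 2) (Fin 2) (ResidueField A) := Matrix.of ![![v 0, u 0], ![v 1, u 1]] with hR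
  set D : Matrix (Fin 2) (Fin 2) (ResidueField A) := Matrix.diagonal ![α, β] with hDdef
  have hRdet : R.det ≠ 0 := by
    intro h0
    obtain ⟨w, hw0, hw⟩ := Matrix.exists_mulVec_eq_zero_iff.mpr h0
    have e0 := congrFun hw 0
    have e1 := congrFun hw 1
    simp [hR, Matrix.mulVec, dotProduct, Fin.sum_univ_two] at e0 e1
    have hcomb : w 0 • v + w 1 • u = 0 := funext fun i => by
      fin_cases i
      · simp; linear_combination e0
      · simp; linear_combination e1
    have himg := congrArg G.mulVec hcomb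
    rw [Matrix.mulVec_add, Matrix.mulVec_smul, Matrix.mulVec_smul, Matrix.mulVec_zero, hv, hu] at himg
    have h3 : (w 0 * (α - β)) • v = 0 := by
      have h4 : w 1 • u = -(w 0 • v) := eq_neg_of_add_eq_zero_right hcomb
      rw [smul_comm (w 1) β u, h4, smul_neg, smul_smul, smul_smul] at himg
      rw [mul_sub, sub_smul]
      rw [mul_comm β (w 0), ← sub_eq_add_neg] at himg
      exact himg
    have hw0' : w 0 = 0 := by
      simpa [hv0, sub_ne_zero.mpr hne] using h3
    have hw1' : w 1 = 0 := by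
      rw [hw0', zero_smul, zero_add] at hcomb
      simpa [hu0] using hcomb
    exact hw0 (funext fun i => by fin_cases i <;> assumption)
  set R' := R⁻¹ with hR'
  have hRR : R * R' = 1 := Matrix.mul_nonsing_inv R (isUnit_iff_ne_zero.mpr hRdet)
  have hRR' : R' * R = 1 := Matrix.nonsing_inv_mul R (isUnit_iff_ne_zero.mpr hRdet)
  have hGR : G * R = R * D := by
    ext i j
    fin_cases i <;> fin_cases j <;>
      [have := congrFun hv 0; have := congrFun hu 0; have := congrFun hv 1; have := congrFun hu 1] <;>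
      simp [hR, hDdef, Matrix.mulVec, dotProduct, Fin.sum_univ_two, Matrix.mul_apply] at this ⊢ <;>
      linear_combination this
  -- no eigenvalue in the prime field
  have hαp : α ^ p = β := by
    refine hαp'.resolve_left fun hfix => ?_
    have hαq : α ^ Nat.card k = α := by
      rw [natCard_eq_pow (p := p)]
      generalize fdeg p k = f
      induction f with
      | zero => rw [pow_zero, pow_one]
      | succ f ih => rw [pow_succ, pow_mul, ih, hfix]
    obtain ⟨a, ha⟩ := exists_map_eq_of_pow ι hαq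
    have hdet0 : (g - a • (1 : Mat2 k)).det = 0 := ι.injective (by
      rw [Matrix.det_fin_two]
      simp
      rw [ha]
      have e1 : ι (g 0 0) + ι (g 1 1) = α + β := hGtr
      have e2 : ι (g 0 0) * ι (g 1 1) - ι (g 0 1) * ι (g 1 0) = α * β := hGdet
      linear_combination e2 - α * e1)
    obtain ⟨v', hv'0, hv'⟩ := Matrix.exists_mulVec_eq_zero_iff.mpr hdet0
    rw [Matrix.sub_mulVec, Matrix.smul_mulVec, Matrix.one_mulVec, sub_eq_zero] at hv'
    have hap : a ^ p = a := ι.injective (by rw [map_pow, ha, hfix])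
    refine hline a v' hv'0 hv' fun x hx => ?_
    have hvp : ∀ m : ℕ, (g ^ m).mulVec v' = a ^ m • v' := fun m => by
      induction m with
      | zero => rw [pow_zero, pow_zero, Matrix.one_mulVec, one_smul]
      | succ m ih => rw [pow_succ', ← Matrix.mulVec_mulVec, ih, Matrix.mulVec_smul, hv', smul_smul, ← pow_succ]
    refine (eq_zero_or_prop (N := g ^ p - a • 1) hv'0 (by
      rw [Matrix.sub_mulVec, Matrix.smul_mulVec, Matrix.one_mulVec, hvp p, hap, sub_self]) (by
      rw [Matrix.sub_mulVec, Matrix.smul_mulVec, Matrix.one_mulVec, hx, sub_self])).resolve_left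
      fun hN => ?_
    -- then the two eigenvalues agree
    have hsemi : G ^ p * R = R * D ^ p := (SemiconjBy.pow_right (show SemiconjBy R D G from hGR.symm) p).eq.symm
    have hGp : G ^ p = (α : ResidueField A) • 1 := by
      rw [hG, ← RingHom.mapMatrix_apply, ← map_pow, sub_eq_zero.mp hN, RingHom.mapMatrix_apply,
        Matrix.map_smul' _ _ _ (map_mul ι), Matrix.map_one _ (map_zero ι) (map_one ι), ha]
    rw [hGp, smul_mul_assoc, one_mul, hDdef, Matrix.diagonal_pow] at hsemi
    have h4 := congrArg (R' * ·) hsemi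
    simp only [mul_smul_comm, hRR', ← mul_assoc, one_mul] at h4
    have h5 : α = β ^ p := by simpa using congrFun (congrFun h4 1) 1
    exact hne (frobenius_inj (ResidueField A) p (show α ^ p = β ^ p from hfix.trans h5))
  have hβp : β ^ p = α := by
    have h1 : (ι t) ^ p = ι t := by rw [← map_pow, htp]
    rw [← hsum, hfrob, hαp] at h1
    linear_combination h1
  -- the space of restrictions
  let coord : (GQ → Mat2 k) →ₗ[k] (GQ → Fin 2 × Fin 2 → k) :=
    { toFun := fun f σ x => f σ x.1 x.2, map_add' := fun _ _ => rfl, map_smul' := fun _ _ => rfl }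
  let H := (Submodule.span k (Set.range c)).map coord
  have hconj : ∀ {s : GQ}, s ∈ A.decompositionSubgroup ℚ → ∀ {a : ℕ}, s S.zp = S.zp ^ a →
      ∀ h ∈ H, ∀ σ ∈ S.W, (a : k) • h (s⁻¹ * σ * s) =
        (conjMat (r s).det (r s⁻¹) (r s)).mulVec (h σ) := by
    intro s hs a ha h hh σ hσ
    obtain ⟨f, hf, rfl⟩ := Submodule.mem_map.mp hh
    obtain ⟨hcy, -, -⟩ := span_facts hc hf
    show _ = (conjMat _ _ _).mulVec (fun x => f σ x.1 x.2)
    rw [conjMat_mulVec, ← det_eq S hc.det ha]
    have e1 := hcy s (s⁻¹ * σ * s)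
    rw [← mul_assoc, ← mul_assoc, mul_inv_cancel, one_mul, hcy σ s, hr1 σ hσ,
      hr1 _ (inv_mem hσ), one_mul, mul_one, add_comm (f σ)] at e1
    have e2 := congrArg (fun Y => r s⁻¹ * Y * r s) (add_left_cancel e1)
    simp only [← mul_assoc, rep_inv_mul, one_mul] at e2
    rw [mul_assoc (f _), rep_inv_mul, mul_one] at e2
    funext x
    show (r s).det * f (s⁻¹ * σ * s) x.1 x.2 = _
    rw [← e2, Matrix.smul_apply, smul_eq_mul]
  let E : Equivariant S H :=
    { Tt := conjMat d gi g
      Tf := conjMat P.det (r S.frob⁻¹) P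
      Tf' := conjMat P.det⁻¹ P (r S.frob⁻¹)
      inv := conjMat_mul (inv_mul_cancel₀ (det_rep_ne_zero r _)) (rep_mul_inv r _) (rep_mul_inv r _)
      at_zero := fun h hh x => by
        obtain ⟨f, hf, rfl⟩ := Submodule.mem_map.mp hh
        obtain ⟨hcy, -, hk⟩ := span_facts hc hf
        refine atLevel_zero_of_chart S X hM (fun a ha b hb => ?_) (fun σ hσ h => ?_)
        · show f (a * b) x.1 x.2 = f a x.1 x.2 + f b x.1 x.2
          rw [hcy, hr1 a ha, hr1 _ (inv_mem ha), one_mul, mul_one, Matrix.add_apply]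
        · show f σ x.1 x.2 = 0
          rw [hk σ (hker σ h).2, Matrix.zero_apply]
      tau_eq := fun a ha h hh σ hσ => hconj S.tau_dec ha h hh σ hσ
      frob_eq := fun a ha h hh σ hσ => hconj S.frob_dec ha h hh σ hσ }
  -- admissible leading vectors
  have hweight : ∀ l ≤ p, l ≠ 1 → ∀ B, IsEigen S ι E.Tt l B →
      let B' := R' * (Matrix.of fun i j => B (i, j)) * R
      B' 0 0 = 0 ∧ B' 1 1 = 0 ∧ (B' 0 1 ≠ 0 → res A S.z ^ l = β * β) ∧
        (B' 1 0 ≠ 0 → res A S.z ^ l = α * α) := by
    intro l hl hl1 B hB B'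
    set Bm := Matrix.of fun i j => B (i, j) with hBm
    set μ := res A S.z ^ l
    have h1 : ι d • (gi.map ι * Bm * G) = μ • Bm := by
      have h2 : (conjMat (ι d) (gi.map ι) (g.map ι)).mulVec (fun x => Bm x.1 x.2) = μ • B := by
        rw [← conjMat_map]
        exact hB
      rw [conjMat_mulVec] at h2
      exact Matrix.ext fun i j => congrFun h2 (i, j)
    have h2 : ι d • (Bm * G) = μ • (G * Bm) := by
      have h3 := congrArg (G * ·) h1
      simp only [mul_smul_comm, ← mul_assoc] at h3
      rwa [hG, ← RingHom.mapMatrix_apply, ← RingHom.mapMatrix_apply, ← map_mul, hgg, map_one,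
        one_mul] at h3
    have hDR : R' * G = D * R' := by
      calc R' * G = R' * (G * R) * R' := by simp only [mul_assoc, hRR, mul_one]
        _ = D * R' := by rw [hGR, ← mul_assoc, hRR', one_mul]
    have h3 : ι d • (B' * D) = μ • (D * B') := by
      have h4 := congrArg (fun Y => R' * Y * R) h2
      simp only [mul_smul_comm, smul_mul_assoc] at h4
      have e1 : R' * (Bm * G) * R = B' * D := by
        simp only [B', ← hBm, mul_assoc, hGR]
      have e2 : R' * (G * Bm) * R = D * B' := by
        simp only [B', ← hBm, ← mul_assoc, hDR]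
      rwa [e1, e2] at h4
    have hij : ∀ i j, B' i j ≠ 0 → μ * ![α, β] i = ι d * ![α, β] j := fun i j hne' => by
      have h4 := congrFun (congrFun h3 i) j
      rw [hDdef, Matrix.smul_apply, Matrix.smul_apply, Matrix.mul_diagonal, Matrix.diagonal_mul,
        smul_eq_mul, smul_eq_mul] at h4
      refine mul_right_cancel₀ hne' ?_
      linear_combination -h4
    have hμ : μ ≠ ι d := fun h => by
      rw [hιd] at h
      have := S.res_z_primitive.pow_inj ((Nat.lt_succ_of_le hl).trans (add_one_lt_tdeg hp3))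
        (add_one_lt_tdeg hp3) h
      omega
    refine ⟨by_contra fun h => hμ ?_, by_contra fun h => hμ ?_, fun h => ?_, fun h => ?_⟩
    · simpa [hα0] using hij 0 0 h
    · simpa [hβ0] using hij 1 1 h
    · have := hij 0 1 h
      simp at this
      exact mul_right_cancel₀ hα0 (by linear_combination this - β * hprod)
    · have := hij 1 0 h
      simp at this
      exact mul_right_cancel₀ hβ0 (by linear_combination this - α * hprod)
  have hsep : ∀ l ≤ p, l ≠ 1 → ∀ l' ≤ p, l' ≠ 1 → res A S.z ^ l = β * β →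
      res A S.z ^ l' = α * α → False := by
    intro l hl hl1 l' hl' hl'1 h h'
    obtain ⟨-, rfl⟩ := weight_pow_eq S hl hl1 hl' hl'1 (by rw [h, h', mul_pow, hβp])
    rw [pow_zero] at h'
    rcases mul_self_eq_one_iff.mp h'.symm with h1 | h1
    · exact hne (by rw [← hαp, h1, one_pow])
    · exact hne (by rw [← hαp, h1, ((Fact.out : p.Prime).odd_of_ne_two hp2).neg_one_pow])
  obtain ⟨σ₀, x₀, hσ₀⟩ := exists_detect S E ι fun l hl hl1 l' hl' hl'1 B B'' hB hB'' hB0 hB''0 => by
    obtain ⟨a1, a2, a3, a4⟩ := hweight l hl hl1 B hB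
    obtain ⟨b1, b2, b3, b4⟩ := hweight l' hl' hl'1 B'' hB''
    set C := R' * (Matrix.of fun i j => B (i, j)) * R with hC
    set C' := R' * (Matrix.of fun i j => B'' (i, j)) * R with hC'
    have back : ∀ Y : Fin 2 × Fin 2 → ResidueField A,
        (Matrix.of fun i j => Y (i, j)) = R * (R' * (Matrix.of fun i j => Y (i, j)) * R) * R' :=
      fun Y => by simp only [← mul_assoc, hRR, one_mul]; rw [mul_assoc, hRR, mul_one]
    have nz : ∀ Y : Fin 2 × Fin 2 → ResidueField A, Y ≠ 0 →
        R' * (Matrix.of fun i j => Y (i, j)) * R ≠ 0 := fun Y hY h => hY (funext fun z => by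
      have := back Y
      rw [h, mul_zero, zero_mul] at this
      exact congrFun (congrFun this z.1) z.2)
    have hCne : C ≠ 0 := nz B hB0
    have hC'ne : C' ≠ 0 := nz B'' hB''0
    have hlt : ∀ m, m ≤ p → m < tdeg p := fun m hm => (Nat.lt_succ_of_le hm).trans (add_one_lt_tdeg hp3)
    suffices h : l' = l ∧ ∃ x : ResidueField A, C' = x • C by
      obtain ⟨rfl, x, hx⟩ := h
      refine ⟨rfl, x, funext fun z => ?_⟩
      have h1 := back B''
      rw [← hC', hx, mul_smul_comm, smul_mul_assoc, hC, ← back B] at h1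
      exact congrFun (congrFun h1 z.1) z.2
    by_cases h01 : C 0 1 = 0
    · have h10 : C 1 0 ≠ 0 := fun h => hCne (by ext i j; fin_cases i <;> fin_cases j <;> simp [a1, a2, h01, h])
      have hb01 : C' 0 1 = 0 := by_contra fun h => hsep l' hl' hl'1 l hl hl1 (b3 h) (a4 h10)
      have hb10 : C' 1 0 ≠ 0 := fun h => hC'ne (by ext i j; fin_cases i <;> fin_cases j <;> simp [b1, b2, hb01, h])
      refine ⟨S.res_z_primitive.pow_inj (hlt _ hl') (hlt _ hl) ((b4 hb10).trans (a4 h10).symm),
        C' 1 0 / C 1 0, ?_⟩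
      ext i j; fin_cases i <;> fin_cases j <;> simp [a1, a2, h01, b1, b2, hb01, h10]
    · have h10 : C 1 0 = 0 := by_contra fun h => hsep l hl hl1 l hl hl1 (a3 h01) (a4 h)
      have hb10 : C' 1 0 = 0 := by_contra fun h => hsep l hl hl1 l' hl' hl'1 (a3 h01) (b4 h)
      have hb01 : C' 0 1 ≠ 0 := fun h => hC'ne (by ext i j; fin_cases i <;> fin_cases j <;> simp [b1, b2, hb10, h])
      refine ⟨S.res_z_primitive.pow_inj (hlt _ hl') (hlt _ hl) ((b3 hb01).trans (a3 h01).symm),
        C' 0 1 / C 0 1, ?_⟩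
      ext i j; fin_cases i <;> fin_cases j <;> simp [a1, a2, h10, b1, b2, hb10, h01]
  -- four values
  obtain ⟨e₁, e₂, he⟩ := exists_two_entries g hnon
  let ev : GQ → Fin 2 × Fin 2 → (GQ → Mat2 k) →ₗ[k] k := fun σ x =>
    { toFun := fun f => f σ x.1 x.2, map_add' := fun _ _ => rfl, map_smul' := fun _ _ => rfl }
  let evf : (GQ → Mat2 k) →ₗ[k] k :=
    { toFun := fun f => (g ^ p * f S.frob).trace
      map_add' := fun _ _ => by simp [mul_add]
      map_smul' := fun _ _ => by simp }
  refine ⟨LinearMap.pi ![ev σ₀ x₀, ev S.tau e₁, ev S.tau e₂, evf], fun f hf h => ?_⟩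
  obtain ⟨hcy, htr, hk⟩ := span_facts hc hf
  have hkf : ∀ σ, (∀ x : M, σ • x = x) → f σ = 0 := fun σ h => hk σ (hker σ h).2
  have hfW : ∀ w ∈ S.W, f w = 0 := fun w hw => by
    have h1 := hσ₀ _ (Submodule.mem_map_of_mem hf) (congrFun h 0) w hw
    exact Matrix.ext fun i j => congrFun h1 (i, j)
  have hone : f 1 = 0 := hkf 1 fun x => one_smul GQ x
  have hmul : ∀ a ∈ A.decompositionSubgroup ℚ, ∀ b ∈ A.decompositionSubgroup ℚ,
      f a = 0 → f b = 0 → f (a * b) = 0 := fun a _ b _ ha hb => by
    rw [hcy, ha, hb, mul_zero, zero_mul, add_zero]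
  have hfτ : f S.tau = 0 := by
    refine he _ (htr _) ?_ (congrFun h 1) (congrFun h 2)
    have hsum' : ∀ m : ℕ, (g * f (S.tau ^ m)).trace = (m : k) * (g * f S.tau).trace := fun m => by
      induction m with
      | zero => rw [pow_zero, hone, mul_zero, Matrix.trace_zero, Nat.cast_zero, zero_mul]
      | succ m ih =>
        have hgm : g * r (S.tau ^ m) = r (S.tau ^ m) * g := by
          rw [map_pow]; exact (Commute.pow_right rfl m).eq
        rw [pow_succ, hcy, mul_add, Matrix.trace_add, ih, Nat.cast_succ, add_mul, one_mul,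
          ← mul_assoc, ← mul_assoc, hgm, mul_assoc (r (S.tau ^ m)), Matrix.trace_mul_cycle,
          rep_inv_mul, one_mul]
    have h1 := hsum' (tdeg p)
    rw [hfW _ S.tau_pow_tdeg, mul_zero, Matrix.trace_zero, eq_comm, mul_eq_zero] at h1
    exact h1.resolve_left
      fun h0 => not_dvd_tdeg (Fact.out : p.Prime) ((CharP.cast_eq_zero_iff k p _).mp h0)
  have hfI : ∀ σ ∈ A.inertiaSubgroupIn ℚ, f σ = 0 := fun σ hσ =>
    forall_inertia S (fun σ => f σ = 0) hone hmul hfW hfτ hσ
  have hfφ : f S.frob = 0 := by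
    obtain ⟨w, hw, hwe⟩ := S.frob_conj
    have hrw : r (S.tau ^ p * w) = g ^ p := by rw [map_mul, map_pow, hr1 w hw, mul_one]
    have h1 : f (S.frob * S.tau) = f ((S.tau ^ p * w) * S.frob) := by
      rw [← hwe, inv_mul_cancel_right]
    rw [hcy, hfτ, mul_zero, zero_mul, add_zero, hcy,
      hfI _ (mul_mem (pow_mem S.tau_mem p) hw.1), zero_add, hrw] at h1
    have hcomm : f S.frob * g ^ p = g ^ p * f S.frob := by
      conv_lhs => rw [h1]
      rw [← hrw, mul_assoc, rep_inv_mul, mul_one]
    set Y := R' * (f S.frob).map ι * R with hY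
    have hGp : (g ^ p).map ι = G ^ p := by
      rw [← RingHom.mapMatrix_apply, map_pow]; rfl
    have hGpR : G ^ p * R = R * D ^ p :=
      (SemiconjBy.pow_right (show SemiconjBy R D G from hGR.symm) p).eq.symm
    have hRGp : R' * G ^ p = D ^ p * R' := by
      calc R' * G ^ p = R' * (G ^ p * R) * R' := by simp only [mul_assoc, hRR, mul_one]
        _ = D ^ p * R' := by rw [hGpR, ← mul_assoc, hRR', one_mul]
    have hYD : Y * D ^ p = D ^ p * Y := by
      have h2 := congrArg (fun Z => R' * Z * R) (congrArg (fun Z : Mat2 k => Z.map ι) hcomm)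
      simp only [Matrix.map_mul, hGp] at h2
      calc Y * D ^ p = R' * ((f S.frob).map ι * G ^ p) * R := by
            simp only [hY, mul_assoc, hGpR]
        _ = R' * (G ^ p * (f S.frob).map ι) * R := h2
        _ = D ^ p * Y := by simp only [hY, ← mul_assoc, hRGp]
    have hdiag : D ^ p = Matrix.diagonal ![β, α] := by
      rw [hDdef, Matrix.diagonal_pow]
      congr 1
      funext i
      fin_cases i <;> simp [hαp, hβp]
    rw [hdiag] at hYD
    have y01 : Y 0 1 = 0 := by
      have := congrFun (congrFun hYD 0) 1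
      rw [Matrix.mul_diagonal, Matrix.diagonal_mul] at this
      simp at this
      exact (mul_eq_zero.mp (show Y 0 1 * (α - β) = 0 by linear_combination this)).resolve_right
        (sub_ne_zero.mpr hne)
    have y10 : Y 1 0 = 0 := by
      have := congrFun (congrFun hYD 1) 0
      rw [Matrix.mul_diagonal, Matrix.diagonal_mul] at this
      simp at this
      exact (mul_eq_zero.mp (show Y 1 0 * (β - α) = 0 by linear_combination this)).resolve_right
        (sub_ne_zero.mpr hne.symm)
    have t1 : Y 0 0 + Y 1 1 = 0 := by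
      rw [← Matrix.trace_fin_two, hY, Matrix.trace_mul_cycle, hRR, one_mul,
        trace_map_two, htr, map_zero]
    have t2 : β * Y 0 0 + α * Y 1 1 = 0 := by
      have h3 : (D ^ p * Y).trace = 0 := by
        rw [show D ^ p * Y = R' * (G ^ p * (f S.frob).map ι) * R by
          simp only [hY, ← mul_assoc, hRGp], Matrix.trace_mul_cycle, hRR, one_mul, ← hGp,
          ← Matrix.map_mul, trace_map_two, show (g ^ p * f S.frob).trace = 0 from congrFun h 3, map_zero]
      rw [hdiag, Matrix.trace_fin_two, Matrix.diagonal_mul, Matrix.diagonal_mul] at h3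
      simpa using h3
    have y00 : Y 0 0 = 0 := (mul_eq_zero.mp
      (show (β - α) * Y 0 0 = 0 by linear_combination t2 - α * t1)).resolve_left (sub_ne_zero.mpr hne.symm)
    have hY0 : Y = 0 := by
      ext i j
      fin_cases i <;> fin_cases j
      · exact y00
      · exact y01
      · exact y10
      · show Y 1 1 = 0
        linear_combination t1 - y00
    have hF : (f S.frob).map ι = 0 := by
      have : R * Y * R' = (f S.frob).map ι := by
        simp only [hY, ← mul_assoc, hRR, one_mul]; rw [mul_assoc, hRR, mul_one]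
      rw [← this, hY0, mul_zero, zero_mul]
    exact Matrix.map_injective ι.injective (hF.trans (Matrix.map_zero _ (map_zero ι)).symm)
  intro σ hσ
  exact forall_decomposition S X (fun σ => f σ = 0) hmul (fun σ _ h => hkf σ h) hfW hfτ hfφ hσ

end Irreducible

end Fermat.Agent.FlatBound
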