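/-
Scalar cochains on the decomposition group which factor through a flat module.
-/
import Fermat.Agent.FlatBound.Cases.Family

set_option autoImplicit false
set_option linter.unusedSectionVars false
set_option linter.style.haveILetI false

noncomputable section

namespace Fermat.Agent.FlatBound

open Fermat.Agent.Galois (GQ)
open Fermat.Agent.Deform (Mat2)
open IsLocalRing

local notation "ℚb" => AlgebraicClosure ℚ

variable {A : ValuationSubring (AlgebraicClosure ℚ)} {p : ℕ} [Fact p.Prime]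
  {k : Type} [Field k] [Finite k] [CharP k p]

/-- A character of the decomposition group. -/
def IsChar (A : ValuationSubring (AlgebraicClosure ℚ)) (χ : GQ → k) : Prop :=
  χ 1 = 1 ∧ ∀ σ ∈ A.decompositionSubgroup ℚ, ∀ τ ∈ A.decompositionSubgroup ℚ, χ (σ * τ) = χ σ * χ τ

/-- A cochain on the decomposition group twisted by a character. -/
def IsCochain (A : ValuationSubring (AlgebraicClosure ℚ)) (χ f : GQ → k) : Prop :=
  ∀ σ ∈ A.decompositionSubgroup ℚ, ∀ τ ∈ A.decompositionSubgroup ℚ, f (σ * τ) = f σ + χ σ * f τ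

variable {χ f : GQ → k} (S : Setting A p)

theorem IsChar.ne_zero (hχ : IsChar A χ) {σ : GQ} (hσ : σ ∈ A.decompositionSubgroup ℚ) : χ σ ≠ 0 := by
  intro h
  have h1 := hχ.2 σ hσ σ⁻¹ (inv_mem hσ)
  rw [mul_inv_cancel, hχ.1, h, zero_mul] at h1
  exact one_ne_zero h1

theorem IsCochain.map_one (hf : IsCochain A χ f) (hχ : IsChar A χ) : f 1 = 0 := by
  have h := hf 1 (one_mem _) 1 (one_mem _)
  rw [mul_one, hχ.1, one_mul] at h
  exact left_eq_add.mp h

theorem IsCochain.conj (hf : IsCochain A χ f) (hχW : ∀ w ∈ S.W, χ w = 1) {s : GQ}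
    (hs : s ∈ A.decompositionSubgroup ℚ) {σ : GQ} (hσ : σ ∈ S.W) :
    χ s * f (s⁻¹ * σ * s) = f σ := by
  have h1 := hf s hs (s⁻¹ * σ * s) (S.W_dec (S.conj_mem_W' hs hσ))
  have h2 := hf σ (S.W_dec hσ) s hs
  rw [← mul_assoc, ← mul_assoc, mul_inv_cancel, one_mul, h2, hχW σ hσ, one_mul] at h1
  linear_combination -h1

variable {M : Type} [AddCommGroup M] [DistribMulAction GQ M] [Finite M] (X : Chart A M)
  {r : GQ →* Mat2 k}

include X in
/-- Cochains on `W`: they vanish unless the weight is trivial, and then one value detects them. -/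
theorem scalar_detect (hdet : DetCyclo p r) (hM : ∀ x : M, p • x = 0) (hχ : IsChar A χ)
    (hχW : ∀ w ∈ S.W, χ w = 1) (c : k) (hc : (r S.tau).det = c * χ S.tau) (hcp : c ^ p = c) :
    ∃ σ₀ : GQ, ∀ f : GQ → k, IsCochain A χ f → (∀ σ ∈ S.W, (∀ x : M, σ • x = x) → f σ = 0) →
      (f σ₀ = 0 ∨ c ≠ 1) → ∀ σ ∈ S.W, f σ = 0 := by
  classical
  obtain ⟨ι⟩ := exists_residue_embedding (k := k) S.hA
  let H : Submodule k (GQ → Unit → k) :=
    { carrier := {h | IsCochain A χ (col h ()) ∧ ∀ σ ∈ S.W, (∀ x : M, σ • x = x) → h σ () = 0}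
      add_mem' := fun {a b} ha hb => ⟨fun σ hσ τ hτ => by
          simp only [col, Pi.add_apply]
          have h1 := ha.1 σ hσ τ hτ
          have h2 := hb.1 σ hσ τ hτ
          simp only [col] at h1 h2
          rw [h1, h2]; ring, fun σ hσ h => by
          simp only [Pi.add_apply, ha.2 σ hσ h, hb.2 σ hσ h, add_zero]⟩
      zero_mem' := ⟨fun σ _ τ _ => by simp [col], fun σ _ _ => rfl⟩
      smul_mem' := fun a h hh => ⟨fun σ hσ τ hτ => by
          simp only [col, Pi.smul_apply, smul_eq_mul]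
          have h1 := hh.1 σ hσ τ hτ
          simp only [col] at h1
          rw [h1]; ring, fun σ hσ h => by
          simp only [Pi.smul_apply, hh.2 σ hσ h, smul_zero]⟩ }
  let cf : k := (r S.frob).det * (χ S.frob)⁻¹
  have hcf : cf ≠ 0 := mul_ne_zero (det_rep_ne_zero r _) (inv_ne_zero (hχ.ne_zero S.frob_dec))
  have hconj : ∀ {s : GQ}, s ∈ A.decompositionSubgroup ℚ → ∀ {a : ℕ}, s S.zp = S.zp ^ a →
      ∀ c' : k, (r s).det = c' * χ s → ∀ h ∈ H, ∀ σ ∈ S.W,
        (a : k) • h (s⁻¹ * σ * s) = (Matrix.of fun _ _ : Unit => c').mulVec (h σ) := by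
    intro s hs a ha c' hc' h hh σ hσ
    funext u
    have h1 := hh.1.conj S hχW hs hσ
    simp only [col] at h1
    simp only [Pi.smul_apply, smul_eq_mul, Matrix.mulVec, dotProduct, Matrix.of_apply,
      Finset.univ_unique, Finset.sum_singleton]
    rw [← det_eq S hdet ha, hc', mul_assoc, ← h1]
  let E : Equivariant S H :=
    { Tt := Matrix.of fun _ _ => c
      Tf := Matrix.of fun _ _ => cf
      Tf' := Matrix.of fun _ _ => cf⁻¹
      inv := by ext u v; simp [Matrix.mul_apply, hcf]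
      at_zero := fun h hh u => atLevel_zero_of_chart S X hM (fun a ha b hb => by
        have h1 := hh.1 a (S.W_dec ha) b (S.W_dec hb)
        rwa [hχW a ha, one_mul] at h1) hh.2
      tau_eq := fun a ha h hh σ hσ => hconj S.tau_dec ha c hc h hh σ hσ
      frob_eq := fun a ha h hh σ hσ => hconj S.frob_dec ha cf
        (by rw [inv_mul_cancel_right₀ (hχ.ne_zero S.frob_dec)]) h hh σ hσ }
  have hzero : ∀ l ≤ p, l ≠ 1 → ∀ B, IsEigen S ι E.Tt l B → B ≠ 0 → l = 0 ∧ c = 1 := by
    intro l hl hl1 B hB hB0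
    have h1 := congrFun hB ()
    simp only [E, Matrix.mulVec, dotProduct, Matrix.map_apply, Matrix.of_apply, Pi.smul_apply,
      smul_eq_mul, Finset.univ_unique, Finset.sum_singleton] at h1
    have h2 : ι c = res A S.z ^ l := mul_right_cancel₀ (fun h0 => hB0 (funext fun u => h0)) h1
    obtain ⟨rfl, -⟩ := weight_pow_eq S hl hl1 hl hl1 (by rw [← h2, ← map_pow, hcp])
    exact ⟨rfl, ι.injective (by rw [h2, pow_zero, map_one])⟩
  obtain ⟨σ₀, j, hσ₀⟩ := exists_detect S E ι fun l hl hl1 l' hl' hl'1 B B' hB hB' hB0 hB'0 => by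
    obtain ⟨rfl, -⟩ := hzero l hl hl1 B hB hB0
    obtain ⟨rfl, -⟩ := hzero l' hl' hl'1 B' hB' hB'0
    refine ⟨rfl, B' () / B (), funext fun u => ?_⟩
    rw [Pi.smul_apply, smul_eq_mul, div_mul_cancel₀ _ (fun h0 => hB0 (funext fun _ => h0))]
  refine ⟨σ₀, fun g hg hgker hg0 σ hσ => ?_⟩
  have hmem : (fun σ _ => g σ : GQ → Unit → k) ∈ H := ⟨hg, hgker⟩
  rcases hg0 with h0 | h0
  · exact congrFun (hσ₀ _ hmem h0 σ hσ) ()
  · exact congrFun (eq_zero_on_W ι E (fun l hl hl1 B hB => by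
      by_contra hB0
      exact h0 (hzero l hl hl1 B hB hB0).2) hmem hσ) ()

include X in
/-- A cochain killed by `W`, by `τ` and, for the trivial character, by Frobenius vanishes. -/
theorem cochain_eq_zero (hχ : IsChar A χ) (hχW : ∀ w ∈ S.W, χ w = 1) (hf : IsCochain A χ f)
    (hker : ∀ σ ∈ A.decompositionSubgroup ℚ, (∀ x : M, σ • x = x) → f σ = 0)
    (hW : ∀ w ∈ S.W, f w = 0) (hτ : f S.tau = 0) (hφ : f S.frob = 0 ∨ χ S.tau ^ p ≠ 1)
    {σ : GQ} (hσ : σ ∈ A.decompositionSubgroup ℚ) : f σ = 0 := by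
  have hmul : ∀ a ∈ A.decompositionSubgroup ℚ, ∀ b ∈ A.decompositionSubgroup ℚ,
      f a = 0 → f b = 0 → f (a * b) = 0 := fun a ha b hb h1 h2 => by
    rw [hf a ha b hb, h1, h2, mul_zero, add_zero]
  refine forall_decomposition S X (fun σ => f σ = 0) hmul hker hW hτ ?_ hσ
  refine hφ.elim id fun hne => ?_
  obtain ⟨w, hw, hwe⟩ := S.frob_conj
  have hI : f (S.tau ^ p * w) = 0 := forall_inertia S (fun σ => f σ = 0) (hf.map_one hχ) hmul hW hτ
    (mul_mem (pow_mem S.tau_mem p) hw.1)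
  have hχe : χ (S.tau ^ p * w) = χ S.tau ^ p := by
    have hpow : ∀ m : ℕ, χ (S.tau ^ m) = χ S.tau ^ m := fun m => by
      induction m with
      | zero => rw [pow_zero, pow_zero, hχ.1]
      | succ m ih => rw [pow_succ, pow_succ, hχ.2 _ (pow_mem S.tau_dec m) _ S.tau_dec, ih]
    rw [hχ.2 _ (pow_mem S.tau_dec p) _ (S.W_dec hw), hpow, hχW w hw, mul_one]
  have h1 : f (S.frob * S.tau) = f ((S.tau ^ p * w) * S.frob) := by
    rw [← hwe, inv_mul_cancel_right]
  rw [hf _ S.frob_dec _ S.tau_dec, hτ, mul_zero, add_zero,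
    hf _ (mul_mem (pow_mem S.tau_dec p) (S.W_dec hw)) _ S.frob_dec, hI, zero_add, hχe] at h1
  by_contra h0
  exact hne (mul_right_cancel₀ h0 (by rw [one_mul]; exact h1.symm))

/-- A homomorphism on inertia killed by `W` kills `τ`. -/
theorem cochain_tau_eq_zero (hχ : IsChar A χ) (hf : IsCochain A χ f) (hχτ : χ S.tau = 1)
    (hW : ∀ w ∈ S.W, f w = 0) : f S.tau = 0 := by
  have hpow : ∀ m : ℕ, f (S.tau ^ m) = m * f S.tau := fun m => by
    induction m with
    | zero => rw [pow_zero, hf.map_one hχ, Nat.cast_zero, zero_mul]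
    | succ m ih =>
      rw [pow_succ', hf _ S.tau_dec _ (pow_mem S.tau_dec m), ih, hχτ]
      push_cast
      ring
  have h := hpow (tdeg p)
  rw [hW _ S.tau_pow_tdeg] at h
  exact (mul_eq_zero.mp h.symm).resolve_left
    fun h0 => not_dvd_tdeg (Fact.out : p.Prime) ((CharP.cast_eq_zero_iff k p _).mp h0)

end Fermat.Agent.FlatBound
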