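/-
The bound when a line is stable: three scalar cochains and an inertia-generated part.
-/
import Fermat.Agent.FlatBound.Cases.Scalar
import Fermat.Agent.FlatBound.Local.Connected

set_option autoImplicit false
set_option linter.unusedSectionVars false
set_option linter.style.haveILetI false

noncomputable section

namespace Fermat.Agent.FlatBound

open Fermat.Agent.Galois (GQ)
open Fermat.Agent.Deform (Mat2)
open IsLocalRing

local notation "ℚb" => AlgebraicClosure ℚ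

variable {A : ValuationSubring (AlgebraicClosure ℚ)} {p : ℕ} [Fact p.Prime]
  {k : Type} [Field k] [Finite k] [CharP k p] {r : GQ →* Mat2 k}

/-- The entries of products of upper triangular matrices. -/
theorem upper_mul {X Y : Mat2 k} (hX : X 1 0 = 0) (hY : Y 1 0 = 0) :
    (X * Y) 0 0 = X 0 0 * Y 0 0 ∧ (X * Y) 1 1 = X 1 1 * Y 1 1 ∧ (X * Y) 1 0 = 0 := by
  simp [Matrix.mul_apply, Fin.sum_univ_two, hX, hY]

/-- The diagonal of a unipotent upper triangular matrix. -/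
theorem diag_eq_one {X : Mat2 k} (hX : X 1 0 = 0) (h : (X - 1) * (X - 1) = 0) :
    X 0 0 = 1 ∧ X 1 1 = 1 := by
  have h0 := congrFun (congrFun h 0) 0
  have h1 := congrFun (congrFun h 1) 1
  simp [Matrix.mul_apply, Fin.sum_univ_two, hX, sub_eq_zero] at h0 h1
  exact ⟨h0, h1⟩

variable {n : ℕ} {c : Fin n → GQ → Mat2 k}

section Upper

variable (S : Setting A p) (h10 : ∀ σ ∈ A.decompositionSubgroup ℚ, r σ 1 0 = 0)

include h10

theorem isChar_diag : IsChar A (fun σ => r σ 0 0) ∧ IsChar A (fun σ => r σ 1 1) :=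
  ⟨⟨by simp, fun σ hσ τ hτ => by simp only [map_mul]; exact (upper_mul (h10 σ hσ) (h10 τ hτ)).1⟩,
   ⟨by simp, fun σ hσ τ hτ => by simp only [map_mul]; exact (upper_mul (h10 σ hσ) (h10 τ hτ)).2.1⟩⟩

theorem diag_inv {σ : GQ} (hσ : σ ∈ A.decompositionSubgroup ℚ) :
    r σ 0 0 * r σ⁻¹ 0 0 = 1 ∧ r σ 1 1 * r σ⁻¹ 1 1 = 1 := by
  have h := upper_mul (h10 σ hσ) (h10 σ⁻¹ (inv_mem hσ))
  rw [rep_mul_inv] at h
  exact ⟨by simpa using h.1.symm, by simpa using h.2.1.symm⟩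

theorem det_upper {σ : GQ} (hσ : σ ∈ A.decompositionSubgroup ℚ) :
    (r σ).det = r σ 0 0 * r σ 1 1 := by
  rw [Matrix.det_fin_two, h10 σ hσ, mul_zero, sub_zero]

include S in
theorem diag_tau_pow (hW : ∀ w ∈ S.W, r w 0 0 = 1 ∧ r w 1 1 = 1) :
    r S.tau 0 0 ^ p = r S.tau 0 0 ∧ r S.tau 1 1 ^ p = r S.tau 1 1 := by
  have key : ∀ χ : GQ → k, IsChar A χ → (∀ w ∈ S.W, χ w = 1) → χ S.tau ^ p = χ S.tau := by
    intro χ hχ hχW
    obtain ⟨w, hw, hwe⟩ := S.frob_conj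
    have hpow : ∀ m : ℕ, χ (S.tau ^ m) = χ S.tau ^ m := fun m => by
      induction m with
      | zero => rw [pow_zero, pow_zero, hχ.1]
      | succ m ih => rw [pow_succ, pow_succ, hχ.2 _ (pow_mem S.tau_dec m) _ S.tau_dec, ih]
    have h1 : χ (S.frob * S.tau) = χ ((S.tau ^ p * w) * S.frob) := by
      rw [← hwe, inv_mul_cancel_right]
    rw [hχ.2 _ S.frob_dec _ S.tau_dec, hχ.2 _ (mul_mem (pow_mem S.tau_dec p) (S.W_dec hw)) _ S.frob_dec,
      hχ.2 _ (pow_mem S.tau_dec p) _ (S.W_dec hw), hpow, hχW w hw, mul_one, mul_comm] at h1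
    exact (mul_right_cancel₀ (hχ.ne_zero S.frob_dec) h1).symm
  exact ⟨key _ (isChar_diag h10).1 fun w hw => (hW w hw).1, key _ (isChar_diag h10).2 fun w hw => (hW w hw).2⟩

include S in
/-- In characteristic three the first coordinate of a flat cocycle on `W` comes from inertia. -/
theorem lower_zero_on_W (hM3 : p = 3 → r S.tau 0 0 ≠ 1) (hp : p = 3) (hdet : DetCyclo p r)
    (hW : ∀ w ∈ S.W, r w 0 0 = 1 ∧ r w 1 1 = 1) {f : GQ → Mat2 k} (hflat : HasFlatLift p r f)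
    {σ : GQ} (hσ : σ ∈ S.W) : f σ 1 0 = 0 := by
  obtain ⟨M, _, _, e, he, hm⟩ := hflat
  haveI : Finite M := Finite.of_equiv _ e.symm.toEquiv
  obtain ⟨X⟩ := nonempty_chart (p := p) S.hA hm
  obtain ⟨-, -, hM⟩ := lift_facts (p := p) e he
  have hτ : r S.tau 1 1 = 1 := by
    have hpw := diag_tau_pow S h10 hW
    have hne := det_rep_ne_zero r S.tau
    rw [det_upper h10 S.tau_dec] at hne
    obtain ⟨h0, h1⟩ := mul_ne_zero_iff.mp hne
    subst hp
    have hsq : ∀ x : k, x ≠ 0 → x ^ 3 = x → x = 1 ∨ x = -1 := fun x hx h => by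
      refine mul_self_eq_one_iff.mp (mul_right_cancel₀ hx ?_)
      linear_combination h
    rcases hsq _ h1 hpw.2 with h | h
    · exact h
    · have hd := sub_one_dvd_of_det_tau_pow S hdet (m := 1)
        (by rw [pow_one, det_upper h10 S.tau_dec, (hsq _ h0 hpw.1).resolve_left (hM3 rfl), h]; ring)
      omega
  have hI : ∀ s ∈ A.inertiaSubgroupIn ℚ, r s 1 1 = 1 := fun s hs =>
    forall_inertia S (fun s => r s 1 1 = 1) (by simp) (fun a ha b hb h1 h2 => by
      show r (a * b) 1 1 = 1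
      simp only [(isChar_diag h10).2.2 a ha b hb, h1, h2, mul_one]) (fun w hw => (hW w hw).2) hτ hs
  let K : AddSubgroup M :=
    { carrier := {z | (e z).1 = 0 ∧ (e z).2 1 = 0}
      add_mem' := fun {a b} ha hb => ⟨by rw [map_add, Prod.fst_add, ha.1, hb.1, add_zero], by
        rw [map_add, Prod.snd_add, Pi.add_apply, ha.2, hb.2, add_zero]⟩
      zero_mem' := ⟨by simp, by simp⟩
      neg_mem' := fun {a} ha => ⟨by rw [map_neg, Prod.fst_neg, ha.1, neg_zero], by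
        rw [map_neg, Prod.snd_neg, Pi.neg_apply, ha.2, neg_zero]⟩ }
  set y := e.symm (![1, 0], 0) with hy
  have hx : e (σ • y - y) = (0, ![f σ 0 0, f σ 1 0]) := by
    have hr : (r σ).mulVec ![1, 0] = ![1, 0] := by
      funext i
      fin_cases i <;> simp [Matrix.mulVec, dotProduct, Fin.sum_univ_two, (hW σ hσ).1, h10 σ (S.W_dec hσ)]
    rw [map_sub, he, hy, e.apply_symm_apply, Matrix.mulVec_zero, zero_add, ← Matrix.mulVec_mulVec,
      hr, Prod.mk_sub_mk, sub_self, sub_zero]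
    congr 1
    funext i
    fin_cases i <;> simp [Matrix.mulVec, dotProduct, Fin.sum_univ_two]
  have hmem : σ • y - y ∈ K := by
    refine X.mem_of_closure S.hA S.hp3 hM K (fun s hs z hz => ?_)
      (AddSubgroup.subset_closure ⟨σ, hσ.1, y, rfl⟩) (fun s hs => ?_)
    · have hd := inertia_mem_decomposition hs
      refine ⟨by rw [he, hz.1, Matrix.mulVec_zero], ?_⟩
      rw [he, hz.1, Matrix.mulVec_zero, Matrix.mulVec_zero, add_zero]
      simp [Matrix.mulVec, dotProduct, Fin.sum_univ_two, h10 s hd, hz.2]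
    · have hd := inertia_mem_decomposition hs
      refine ⟨by rw [map_sub, he, hx]; simp, ?_⟩
      rw [map_sub, he, hx]
      simp [h10 s hd, hI s hs]
  have h := hmem.2
  rw [hx] at h
  simpa using h

include S in
/-- The bound for a stable line. -/
theorem bounded_of_upper {c : Fin (n + 1) → GQ → Mat2 k} (hc : Family p r c)
    (h3 : p = 3 → r S.tau 0 0 ≠ 1) : Bounded A c := by
  obtain ⟨M, _, _, _, ⟨X⟩, hM, hker⟩ := exists_module (r := r) S.hA n c hc.flat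
  have hW : ∀ w ∈ S.W, r w 0 0 = 1 ∧ r w 1 1 = 1 := fun w hw =>
    diag_eq_one (h10 w (S.W_dec hw)) (W_diag_sq S X hc.det (fun σ h => (hker σ h).1) hw)
  obtain ⟨hχ₁, hχ₂⟩ := isChar_diag h10
  have hm0 : ∀ σ ∈ A.decompositionSubgroup ℚ, ∀ τ ∈ A.decompositionSubgroup ℚ,
      r (σ * τ) 0 0 = r σ 0 0 * r τ 0 0 := hχ₁.2
  have hm1 : ∀ σ ∈ A.decompositionSubgroup ℚ, ∀ τ ∈ A.decompositionSubgroup ℚ,
      r (σ * τ) 1 1 = r σ 1 1 * r τ 1 1 := hχ₂.2
  have hinv : ∀ {σ}, σ ∈ A.decompositionSubgroup ℚ → r σ 0 0 * r σ⁻¹ 0 0 = 1 ∧ r σ 1 1 * r σ⁻¹ 1 1 = 1 :=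
    fun hσ => diag_inv h10 hσ
  -- the characters of the two off-diagonal coordinates
  set χl : GQ → k := fun σ => r σ 1 1 * r σ⁻¹ 0 0 with hχl
  set χu : GQ → k := fun σ => r σ 0 0 * r σ⁻¹ 1 1 with hχu
  have hcl : IsChar A χl := ⟨by simp [hχl], fun σ hσ τ hτ => by
    simp only [hχl, mul_inv_rev]
    rw [hm1 σ hσ τ hτ, hm0 _ (inv_mem hτ) _ (inv_mem hσ)]
    ring⟩
  have hcu : IsChar A χu := ⟨by simp [hχu], fun σ hσ τ hτ => by
    simp only [hχu, mul_inv_rev]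
    rw [hm0 σ hσ τ hτ, hm1 _ (inv_mem hτ) _ (inv_mem hσ)]
    ring⟩
  have hWi : ∀ w ∈ S.W, r w⁻¹ 0 0 = 1 ∧ r w⁻¹ 1 1 = 1 := fun w hw => hW _ (inv_mem hw)
  have hclW : ∀ w ∈ S.W, χl w = 1 := fun w hw => by simp [hχl, (hW w hw).2, (hWi w hw).1]
  have hcuW : ∀ w ∈ S.W, χu w = 1 := fun w hw => by simp [hχu, (hW w hw).1, (hWi w hw).2]
  obtain ⟨hp0, hp1⟩ := diag_tau_pow S h10 hW
  obtain ⟨hi0, hi1⟩ := hinv S.tau_dec
  have hdτ := det_upper h10 S.tau_dec
  have hne := det_rep_ne_zero r S.tau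
  rw [hdτ] at hne
  -- the two characters differ at `τ`
  have hdiff : r S.tau 0 0 ≠ r S.tau 1 1 := fun heq => by
    obtain ⟨m, hm⟩ := (Fact.out : p.Prime).odd_of_ne_two (by have := S.hp3; omega)
    have hpow : (r S.tau 0 0) ^ (p - 1) = 1 := mul_right_cancel₀ (mul_ne_zero_iff.mp hne).1
      (by rw [one_mul, ← pow_succ, show p - 1 + 1 = p by omega, hp0])
    have hd := sub_one_dvd_of_det_tau_pow S hc.det (m := m)
      (by rw [hdτ, ← heq, ← sq, ← pow_mul, show 2 * m = p - 1 by omega, hpow])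
    have := Nat.le_of_dvd (by have := S.hp3; omega) hd
    have := S.hp3
    omega
  have hclτ : χl S.tau ^ p ≠ 1 := fun h => hdiff (by
    rw [hχl, mul_pow, hp1] at h
    have hq : r S.tau⁻¹ 0 0 ^ p = r S.tau⁻¹ 0 0 := by
      rw [eq_inv_of_mul_eq_one_right hi0, inv_pow, hp0]
    rw [hq] at h
    linear_combination (r S.tau 1 1) * hi0 - (r S.tau 0 0) * h)
  have hcuτ : χu S.tau ^ p ≠ 1 := fun h => hdiff (by
    rw [hχu, mul_pow, hp0] at h
    have hq : r S.tau⁻¹ 1 1 ^ p = r S.tau⁻¹ 1 1 := by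
      rw [eq_inv_of_mul_eq_one_right hi1, inv_pow, hp1]
    rw [hq] at h
    linear_combination (r S.tau 1 1) * h - (r S.tau 0 0) * hi1)
  -- detection
  obtain ⟨σl, hσl⟩ := scalar_detect S X hc.det hM hcl hclW (r S.tau 0 0 ^ 2)
    (by rw [hdτ, hχl]; linear_combination -(r S.tau 0 0 * r S.tau 1 1) * hi0)
    (by rw [← pow_mul, mul_comm, pow_mul, hp0])
  obtain ⟨σu, hσu⟩ := scalar_detect S X hc.det hM hcu hcuW (r S.tau 1 1 ^ 2)
    (by rw [hdτ, hχu]; linear_combination -(r S.tau 0 0 * r S.tau 1 1) * hi1)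
    (by rw [← pow_mul, mul_comm, pow_mul, hp1])
  have hdet1 : (r S.tau).det ≠ 1 := fun h => by
    have := Nat.le_of_dvd one_pos (sub_one_dvd_of_det_tau_pow S hc.det (m := 1) (by rw [pow_one, h]))
    have := S.hp3
    omega
  have hone : IsChar A (fun _ : GQ => (1 : k)) := ⟨rfl, fun _ _ _ _ => (mul_one 1).symm⟩
  obtain ⟨σd, hσd⟩ := scalar_detect S X hc.det hM hone (fun _ _ => rfl) (r S.tau).det
    (mul_one _).symm (det_pow_p S hc.det _)
  -- the common part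
  have hfacts : ∀ f ∈ Submodule.span k (Set.range c), ∀ σ, (∀ x : M, σ • x = x) → f σ = 0 :=
    fun f hf σ h => (span_facts hc hf).2.2 σ (hker σ h).2
  have finish : ∀ f ∈ Submodule.span k (Set.range c), (∀ σ ∈ S.W, f σ 1 0 = 0) →
      f S.tau 1 0 = 0 → f S.frob 0 0 = 0 → (f σu 0 1 = 0 ∨ r S.tau 1 1 ^ 2 ≠ 1) → f S.tau 0 1 = 0 →
      ∀ σ ∈ A.decompositionSubgroup ℚ, f σ = 0 := by
    intro f hf hlW hlτ hdφ huσ huτ
    obtain ⟨hcy, htr, -⟩ := span_facts hc hf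
    have hkf := hfacts f hf
    have hent : ∀ σ ∈ A.decompositionSubgroup ℚ, ∀ τ, f (σ * τ) 1 0 = f σ 1 0 + χl σ * f τ 1 0 :=
      fun σ hσ τ => by
        rw [hcy σ τ]
        simp [Matrix.mul_apply, Fin.sum_univ_two, h10 σ hσ, h10 σ⁻¹ (inv_mem hσ), hχl]
        ring
    have hl : ∀ σ ∈ A.decompositionSubgroup ℚ, f σ 1 0 = 0 := fun σ hσ =>
      cochain_eq_zero S X (f := fun σ => f σ 1 0) hcl hclW (fun a ha b _ => hent a ha b)
        (fun σ _ h => by simp [hkf σ h]) hlW hlτ (Or.inr hclτ) hσ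
    have hdc : IsCochain A (fun _ : GQ => (1 : k)) fun σ => f σ 0 0 := fun σ hσ τ hτ => by
      simp only [hcy σ τ]
      simp [Matrix.mul_apply, Fin.sum_univ_two, h10 σ⁻¹ (inv_mem hσ), hl τ hτ]
      linear_combination (f τ 0 0) * (hinv hσ).1
    have hdW : ∀ σ ∈ S.W, f σ 0 0 = 0 :=
      hσd _ hdc (fun σ _ h => by simp [hkf σ h]) (Or.inr hdet1)
    have hd : ∀ σ ∈ A.decompositionSubgroup ℚ, f σ 0 0 = 0 := fun σ hσ =>
      cochain_eq_zero S X hone (fun _ _ => rfl) hdc (fun σ _ h => by simp [hkf σ h]) hdW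
        (cochain_tau_eq_zero S hone hdc rfl hdW) (Or.inl hdφ) hσ
    have hd' : ∀ σ ∈ A.decompositionSubgroup ℚ, f σ 1 1 = 0 := fun σ hσ => by
      have := htr σ
      rwa [Matrix.trace_fin_two, hd σ hσ, zero_add] at this
    have huc : IsCochain A χu fun σ => f σ 0 1 := fun σ hσ τ hτ => by
      simp only [hcy σ τ]
      simp [Matrix.mul_apply, Fin.sum_univ_two, hl τ hτ, hd τ hτ, hd' τ hτ, hχu]
      ring
    have hu : ∀ σ ∈ A.decompositionSubgroup ℚ, f σ 0 1 = 0 := fun σ hσ =>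
      cochain_eq_zero S X hcu hcuW huc (fun σ _ h => by simp [hkf σ h])
        (hσu _ huc (fun σ _ h => by simp [hkf σ h]) huσ) huτ (Or.inr hcuτ) hσ
    intro σ hσ
    ext i j
    fin_cases i <;> fin_cases j
    · exact hd σ hσ
    · exact hu σ hσ
    · exact hl σ hσ
    · exact hd' σ hσ
  let ev : GQ → Fin 2 → Fin 2 → (GQ → Mat2 k) →ₗ[k] k := fun σ i j =>
    { toFun := fun f => f σ i j, map_add' := fun _ _ => rfl, map_smul' := fun _ _ => rfl }
  by_cases hA' : ∀ f ∈ Submodule.span k (Set.range c), ∀ σ ∈ S.W, f σ 1 0 = 0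
  · refine ⟨LinearMap.pi ![ev S.tau 1 0, ev S.frob 0 0, ev σu 0 1, ev S.tau 0 1], fun f hf h => ?_⟩
    exact finish f hf (hA' f hf) (congrFun h 0) (congrFun h 1) (Or.inl (congrFun h 2)) (congrFun h 3)
  · push Not at hA'
    obtain ⟨f₀, hf₀, σ₀, hσ₀, hne₀⟩ := hA'
    have hp3' : p ≠ 3 := by
      intro hp
      apply hne₀
      clear hne₀
      induction hf₀ using Submodule.span_induction with
      | mem g hg =>
        obtain ⟨i, rfl⟩ := hg
        exact lower_zero_on_W S h10 h3 hp hc.det hW (hc.flat i) hσ₀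
      | zero => rfl
      | add g g' _ _ h h' => simp [h, h']
      | smul a g _ h => simp [h]
    have hsq : r S.tau 0 0 ^ 2 = 1 := by
      by_contra hsq
      refine hne₀ (hσl (fun σ => f₀ σ 1 0) (fun σ hσ τ _ => ?_)
        (fun σ _ h => by simp [hfacts f₀ hf₀ σ h]) (Or.inr hsq) σ₀ hσ₀)
      simp only [(span_facts hc hf₀).1 σ τ]
      simp [Matrix.mul_apply, Fin.sum_univ_two, h10 σ hσ, h10 σ⁻¹ (inv_mem hσ), hχl]
      ring
    have hsq' : r S.tau 1 1 ^ 2 ≠ 1 := fun h => by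
      have hd := Nat.le_of_dvd two_pos (sub_one_dvd_of_det_tau_pow S hc.det (m := 2)
        (by rw [hdτ, mul_pow, hsq, h, mul_one]))
      have := S.hp3
      omega
    refine ⟨LinearMap.pi ![ev σl 1 0, ev S.tau 1 0, ev S.frob 0 0, ev S.tau 0 1], fun f hf h => ?_⟩
    refine finish f hf (hσl (fun σ => f σ 1 0) (fun σ hσ τ _ => ?_)
        (fun σ _ h' => by simp [hfacts f hf σ h']) (Or.inl (congrFun h 0)))
      (congrFun h 1) (congrFun h 2) (Or.inr hsq') (congrFun h 3)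
    simp only [(span_facts hc hf).1 σ τ]
    simp [Matrix.mul_apply, Fin.sum_univ_two, h10 σ hσ, h10 σ⁻¹ (inv_mem hσ), hχl]
    ring

end Upper

end Fermat.Agent.FlatBound
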