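/-
Changes of basis, and the choice of the stable line.
-/
import Fermat.Agent.FlatBound.Cases.Tri
import Fermat.Agent.FlatBound.Cases.Irred

set_option autoImplicit false
set_option linter.unusedSectionVars false
set_option linter.style.haveILetI false

noncomputable section

namespace Fermat.Agent.FlatBound

open Fermat.Agent.Galois (GQ)
open Fermat.Agent.Deform (Mat2)

local notation "ℚb" => AlgebraicClosure ℚ

variable {A : ValuationSubring (AlgebraicClosure ℚ)} {p : ℕ} [Fact p.Prime]
  {k : Type} [Field k] [Finite k] [CharP k p] {r : GQ →* Mat2 k} {n : ℕ}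

/-- The representation in another basis. -/
def conjRep (r : GQ →* Mat2 k) (Q Q' : Mat2 k) (h : Q' * Q = 1) : GQ →* Mat2 k where
  toFun σ := Q' * r σ * Q
  map_one' := by rw [map_one, mul_one, h]
  map_mul' σ τ := by
    rw [map_mul]
    simp only [mul_assoc]
    rw [← mul_assoc Q Q', mul_eq_one_comm.mp h, one_mul]

theorem conjRep_apply (r : GQ →* Mat2 k) (Q Q' : Mat2 k) (h : Q' * Q = 1) (σ : GQ) :
    conjRep r Q Q' h σ = Q' * r σ * Q := rfl

theorem hasFlatLift_conj {Q Q' : Mat2 k} (h : Q' * Q = 1) {f : GQ → Mat2 k}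
    (hf : HasFlatLift p r f) : HasFlatLift p (conjRep r Q Q' h) fun σ => Q' * f σ * Q := by
  obtain ⟨M, iA, iM, e, he, hm⟩ := hf
  have hQ : Q * Q' = 1 := mul_eq_one_comm.mp h
  have hc : ∀ v, Q.mulVec (Q'.mulVec v) = v := fun v => by
    rw [Matrix.mulVec_mulVec, hQ, Matrix.one_mulVec]
  let T : (Fin 2 → k) ≃+ (Fin 2 → k) :=
    { toFun := Q'.mulVec, invFun := Q.mulVec
      left_inv := hc
      right_inv := fun v => by rw [Matrix.mulVec_mulVec, h, Matrix.one_mulVec]
      map_add' := fun a b => Matrix.mulVec_add _ a b }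
  refine ⟨M, iA, iM, e.trans (T.prodCongr T), fun σ m => ?_, hm⟩
  show (Q'.mulVec (e (σ • m)).1, Q'.mulVec (e (σ • m)).2) = _
  rw [he]
  show _ = ((conjRep r Q Q' h σ).mulVec (Q'.mulVec (e m).1),
    (conjRep r Q Q' h σ).mulVec (Q'.mulVec (e m).2) +
      (Q' * f σ * Q * conjRep r Q Q' h σ).mulVec (Q'.mulVec (e m).1))
  simp only [conjRep_apply, ← Matrix.mulVec_mulVec, hc, Matrix.mulVec_add]

theorem family_conj {c : Fin n → GQ → Mat2 k} {Q Q' : Mat2 k} (h : Q' * Q = 1) (hc : Family p r c) :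
    Family p (conjRep r Q Q' h) fun i σ => Q' * c i σ * Q := by
  refine ⟨fun σ a ha => ?_, fun i σ => ?_, fun i => hasFlatLift_conj h (hc.flat i)⟩
  · rw [conjRep_apply, Matrix.det_mul, Matrix.det_mul, mul_right_comm, ← Matrix.det_mul, h,
      Matrix.det_one, one_mul, hc.det σ a ha]
  · rw [Matrix.trace_mul_cycle, mul_eq_one_comm.mp h, one_mul, hc.tr]

theorem bounded_conj {c : Fin n → GQ → Mat2 k} {Q Q' : Mat2 k} (h : Q' * Q = 1)
    (hb : Bounded A fun i σ => Q' * c i σ * Q) : Bounded A c := by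
  obtain ⟨Φ, hΦ⟩ := hb
  let C : (GQ → Mat2 k) →ₗ[k] (GQ → Mat2 k) :=
    { toFun := fun f σ => Q' * f σ * Q
      map_add' := fun f g => funext fun σ => by simp [mul_add, add_mul]
      map_smul' := fun a f => funext fun σ => by simp }
  refine ⟨Φ.comp C, fun f hf h0 σ hσ => ?_⟩
  have hmem : C f ∈ Submodule.span k (Set.range fun i σ => Q' * c i σ * Q) := by
    have h1 := Submodule.mem_map_of_mem (f := C) hf
    rw [Submodule.map_span, ← Set.range_comp] at h1
    exact h1
  have h1 := hΦ _ hmem h0 σ hσ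
  have h2 := congrArg (fun Y => Q * Y * Q') h1
  simp only [C, LinearMap.coe_mk, AddHom.coe_mk, mul_zero, zero_mul, ← mul_assoc,
    mul_eq_one_comm.mp h, one_mul] at h2
  rwa [mul_assoc, mul_eq_one_comm.mp h, mul_one] at h2

theorem exists_basis_change {v : Fin 2 → k} (hv : v ≠ 0) :
    ∃ Q Q' : Mat2 k, Q' * Q = 1 ∧ Q.mulVec ![1, 0] = v := by
  obtain ⟨x, y, hxy⟩ : ∃ x y : k, v 0 * y - x * v 1 ≠ 0 := by
    by_cases h0 : v 0 = 0
    · refine ⟨1, 0, ?_⟩
      have : v 1 ≠ 0 := fun h => hv (funext fun i => by fin_cases i <;> assumption)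
      simpa [h0] using this
    · exact ⟨0, 1, by simpa using h0⟩
  refine ⟨!![v 0, x; v 1, y], (!![v 0, x; v 1, y])⁻¹, Matrix.nonsing_inv_mul _ ?_, ?_⟩
  · rw [isUnit_iff_ne_zero, Matrix.det_fin_two]
    simpa using hxy
  · funext i
    fin_cases i <;> simp [Matrix.mulVec, dotProduct, Fin.sum_univ_two]

/-- A stable line becomes the first axis. -/
theorem upper_of_stable {v : Fin 2 → k} (hv : StableLine A r v) {Q Q' : Mat2 k} (h : Q' * Q = 1)
    (hQ : Q.mulVec ![1, 0] = v) {σ : GQ} (hσ : σ ∈ A.decompositionSubgroup ℚ) :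
    ∃ a, (r σ).mulVec v = a • v ∧ conjRep r Q Q' h σ 1 0 = 0 ∧ conjRep r Q Q' h σ 0 0 = a := by
  obtain ⟨a, ha⟩ := hv.2 σ hσ
  have h1 : (conjRep r Q Q' h σ).mulVec ![1, 0] = a • ![1, 0] := by
    rw [conjRep_apply, ← Matrix.mulVec_mulVec, ← Matrix.mulVec_mulVec, hQ, ha, Matrix.mulVec_smul,
      ← hQ, Matrix.mulVec_mulVec, h, Matrix.one_mulVec]
  have e0 := congrFun h1 0
  have e1 := congrFun h1 1
  simp [Matrix.mulVec, dotProduct, Fin.sum_univ_two] at e0 e1
  exact ⟨a, ha, e1, e0⟩

variable (S : Setting A p)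

include S in
theorem bounded_of_line {c : Fin (n + 1) → GQ → Mat2 k} (hc : Family p r c) {v : Fin 2 → k}
    (hv : StableLine A r v) (h3 : p = 3 → (r S.tau).mulVec v ≠ v) : Bounded A c := by
  obtain ⟨Q, Q', h, hQ⟩ := exists_basis_change hv.1
  refine bounded_conj h (bounded_of_upper S (fun σ hσ => ?_) (family_conj h hc) fun hp h00 => ?_)
  · obtain ⟨a, -, h10, -⟩ := upper_of_stable hv h hQ hσ
    exact h10
  · obtain ⟨a, ha, -, h0⟩ := upper_of_stable hv h hQ S.tau_dec
    rw [h0] at h00
    exact h3 hp (by rw [ha, h00, one_smul])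

include S in
/-- In characteristic three an axis fixed by `τ` can be traded for a second stable line. -/
theorem bounded_of_upper_three {c : Fin (n + 1) → GQ → Mat2 k} (hc : Family p r c) (hp : p = 3)
    (h10 : ∀ σ ∈ A.decompositionSubgroup ℚ, r σ 1 0 = 0) (h00 : r S.tau 0 0 = 1) : Bounded A c := by
  obtain ⟨M, iA, iM, e, he, hm⟩ := hc.flat 0
  haveI : Finite M := Finite.of_equiv _ e.symm.toEquiv
  obtain ⟨X⟩ := nonempty_chart (p := p) S.hA hm
  obtain ⟨-, hk, hM⟩ := lift_facts (p := p) e he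
  have hW : ∀ w ∈ S.W, r w 0 0 = 1 ∧ r w 1 1 = 1 := fun w hw =>
    diag_eq_one (h10 w (S.W_dec hw)) (W_diag_sq S X hc.det (fun σ h => (hk σ h).1) hw)
  have hI : ∀ s ∈ A.inertiaSubgroupIn ℚ, r s 0 0 = 1 := fun s hs =>
    forall_inertia S (fun s => r s 0 0 = 1) (by simp) (fun a ha b hb h1 h2 => by
      have := (isChar_diag h10).1.2 a ha b hb
      simp only at this
      simp only [this, h1, h2, mul_one]) (fun w hw => (hW w hw).1) h00 hs
  have hW1 : ∀ w ∈ S.W, r w = 1 := by
    intro w hw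
    set y := e.symm ((0 : Fin 2 → k), ![0, 1]) with hy
    have hx : e (w • y - y) = (0, ![r w 0 1, 0]) := by
      rw [map_sub, he, hy, e.apply_symm_apply, Matrix.mulVec_zero, Matrix.mulVec_zero, add_zero,
        Prod.mk_sub_mk, sub_zero]
      congr 1
      funext i
      fin_cases i <;> simp [(hW w hw).2]
    have hmem := X.mem_of_closure S.hA S.hp3 hM ⊥ (fun s _ z hz => by
        rw [AddSubgroup.mem_bot.mp hz, smul_zero]; exact zero_mem _)
      (AddSubgroup.subset_closure ⟨w, hw.1, y, rfl⟩) fun s hs => AddSubgroup.mem_bot.mpr (e.injective (by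
        rw [map_sub, he, hx, map_zero]
        simp only [Matrix.mulVec_zero, add_zero, Prod.mk_sub_mk, sub_zero, Prod.mk_eq_zero, true_and]
        funext i
        fin_cases i <;> simp [hI s hs, h10 s (inertia_mem_decomposition hs)]))
    have h01 : r w 0 1 = 0 := by
      rw [AddSubgroup.mem_bot.mp hmem, map_zero] at hx
      simpa using (congrFun (congrArg Prod.snd hx) 0).symm
    ext i j
    fin_cases i <;> fin_cases j <;> simp [(hW w hw).1, (hW w hw).2, h01, h10 w (S.W_dec hw)]
  have h11 : r S.tau 1 1 = -1 := by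
    subst hp
    have hp1 := (diag_tau_pow S h10 hW).2
    have hdτ := det_upper h10 S.tau_dec
    have hne := det_rep_ne_zero r S.tau
    rw [hdτ, h00, one_mul] at hne
    refine (mul_self_eq_one_iff.mp (mul_right_cancel₀ hne
      (show r S.tau 1 1 * r S.tau 1 1 * r S.tau 1 1 = 1 * r S.tau 1 1 by
        linear_combination hp1))).resolve_left fun h => ?_
    have hd := sub_one_dvd_of_det_tau_pow S hc.det (m := 1)
      (by rw [pow_one, hdτ, h00, h, mul_one])
    omega
  set b := r S.tau 0 1 with hb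
  set v : Fin 2 → k := ![-b, 2] with hv
  have h2 : (2 : k) ≠ 0 := two_ne_zero_k S
  have hneg : ∀ u : Fin 2 → k, (r S.tau).mulVec u = -u ↔ 2 * u 0 + b * u 1 = 0 := fun u => by
    constructor
    · intro h
      have := congrFun h 0
      simp [Matrix.mulVec, dotProduct, Fin.sum_univ_two, h00, ← hb] at this
      linear_combination this
    · intro h
      funext i
      fin_cases i
      · simp [Matrix.mulVec, dotProduct, Fin.sum_univ_two, h00, ← hb]
        linear_combination h
      · simp [Matrix.mulVec, dotProduct, Fin.sum_univ_two, h10 _ S.tau_dec, h11]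
  have hgv : (r S.tau).mulVec v = -v := (hneg v).mpr (by simp [hv]; ring)
  have hv0 : v ≠ 0 := fun h => h2 (by simpa [hv] using congrFun h 1)
  refine bounded_of_line S hc (v := v) ⟨hv0, fun σ hσ => ?_⟩ fun _ h => ?_
  · refine forall_decomposition S X (fun σ => ∃ a : k, (r σ).mulVec v = a • v)
      (fun x _ y _ hx hy => ?_) (fun σ _ h => ⟨1, by rw [(hk σ h).1, Matrix.one_mulVec, one_smul]⟩)
      (fun w hw => ⟨1, by rw [hW1 w hw, Matrix.one_mulVec, one_smul]⟩)
      ⟨-1, by rw [hgv, neg_one_smul]⟩ ?_ hσ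
    · obtain ⟨a, ha⟩ := hx
      obtain ⟨a', ha'⟩ := hy
      exact ⟨a' * a, by rw [map_mul, ← Matrix.mulVec_mulVec, ha', Matrix.mulVec_smul, ha, smul_smul]⟩
    · obtain ⟨w, hw, hwe⟩ := S.frob_conj
      have h1 : r S.frob * r S.tau = r S.tau ^ p * r S.frob := by
        rw [← map_mul, ← map_pow, ← mul_one (r (S.tau ^ p)), ← hW1 w hw, ← map_mul, ← map_mul,
          ← hwe, inv_mul_cancel_right]
      have hsq : r S.tau * r S.tau = 1 := by
        ext i j
        fin_cases i <;> fin_cases j <;>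
          simp [Matrix.mul_apply, Fin.sum_univ_two, h00, h11, h10 _ S.tau_dec]
      set u := (r S.frob).mulVec v with hu
      have hu' : (r S.tau).mulVec u = -u := by
        have h3 : r S.tau ^ p = r S.tau := by
          rw [congrArg (fun e : ℕ => r S.tau ^ e) hp, pow_succ, pow_two, hsq, one_mul]
        rw [h3] at h1
        rw [hu, Matrix.mulVec_mulVec, ← h1, ← Matrix.mulVec_mulVec, hgv, Matrix.mulVec_neg]
      have h4 := (hneg u).mp hu'
      refine ⟨u 1 / 2, funext fun i => ?_⟩
      fin_cases i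
      · simp [hv]
        field_simp
        linear_combination h4
      · simp [hv, h2]
  · have h4 : (2 : k) • v = 0 := by
      rw [two_smul]
      conv_lhs => arg 1; rw [← h]
      rw [hgv, neg_add_cancel]
    exact hv0 ((smul_eq_zero.mp h4).resolve_left h2)

include S in
theorem bounded_of_family {c : Fin (n + 1) → GQ → Mat2 k} (hc : Family p r c) : Bounded A c := by
  by_cases hex : ∃ v, StableLine A r v
  · obtain ⟨v, hv⟩ := hex
    by_cases h3 : p = 3 → (r S.tau).mulVec v ≠ v
    · exact bounded_of_line S hc hv h3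
    · rw [Classical.not_imp, ne_eq, not_not] at h3
      obtain ⟨hp, hfix⟩ := h3
      obtain ⟨Q, Q', h, hQ⟩ := exists_basis_change hv.1
      refine bounded_conj h (bounded_of_upper_three S (family_conj h hc) hp (fun σ hσ => ?_) ?_)
      · obtain ⟨a, -, h10, -⟩ := upper_of_stable hv h hQ hσ
        exact h10
      · obtain ⟨a, ha, -, h0⟩ := upper_of_stable hv h hQ S.tau_dec
        rw [h0]
        rw [hfix] at ha
        by_contra ha1
        refine hv.1 ((smul_eq_zero.mp (show (1 - a) • v = 0 by rw [sub_smul, one_smul, ← ha, sub_self])).resolve_left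
          (sub_ne_zero.mpr (Ne.symm ha1)))
  · push Not at hex
    obtain ⟨M, _, _, _, ⟨X⟩, hM, hker⟩ := exists_module (r := r) S.hA n c hc.flat
    exact bounded_of_irred S X hc hM hker hex

end Fermat.Agent.FlatBound
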